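/-
S59, wall **M2 ∪ M3 = LOWER-Q** (deputies helper3 (M2, Mazur's principle) + helper4 (M3, K-machine)).
Battle plan: NOTES/S59-battle.md; ledger: NOTES/S59-LowQ.md.

THE WALL `s59lq_Wall p` = the FROZEN type of S38 at the prime `p` (general semistable `W`, `q = 2`
included): `ρ̄_{W,p}` irreducible, residually modular of a squarefree level `M`, unramified at
`q ∣ M`, `q ≠ p`  ⇒  residually modular of level `M / q` (SAME `W`).

LEAVES (Props):
* `s59lq_StmtMPOn R`  : **Mazur's principle for `W`** on the triples `(p, q, M₁)` in the range `R`: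
                         level `M₁ q → M₁`, or `q` is a TRIVIAL prime of `W` at `p`;
* `s59lq_StmtTR p`    : **the K-machine for `W`**: if every prime `r ≠ p` of the level at which `ρ̄`
                         is unramified is trivial, any one of them can be removed;
* `s59lq_StmtRaise`   : raising the level is free (true: `S58.stab_exists_prime`, see `Glue.lean`).

GLUE (proved here, strong induction on the level as in `RIB.rib_lowered_of_not_dvd`):
  `s59lq_wall_of_leaves : s59lq_StmtMPOn (fun p' _ _ => p' = p) → s59lq_StmtTR p → s59lq_StmtRaise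
      → s59lq_Wall p`.
`s59lq_stmtMPOn_union` glues ranges of Mazur's principle.
-/
import Mathlib
import Fermat.Prelude.Def_GaloisRep_Residual
import Fermat.Prelude.Def_FLTPrelim_ModularRep

set_option autoImplicit false
set_option linter.unusedSectionVars false
set_option linter.unusedVariables false
set_option linter.style.longLine false

open WeierstrassCurve WeierstrassCurve.Affine WeierstrassCurve.Affine.Point

noncomputable section

namespace Fermat.Agent.S59.LowQ

/-- `E[p](ℚ̄)` of the integral model `W` -/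
abbrev s59lq_Tors (W : WeierstrassCurve ℤ) (p : ℕ) : Type :=
  Submodule.torsionBy ℤ ((W.map (Int.castRingHom ℚ))⁄(AlgebraicClosure ℚ)).Point p

/-- `E[p]` is unramified at `q` (pointwise form). -/
def s59lq_Unram (W : WeierstrassCurve ℤ) (p q : ℕ) : Prop :=
  ∀ A : ValuationSubring (AlgebraicClosure ℚ), A.LiesOverPrime q →
    ∀ τ ∈ A.inertiaSubgroupIn ℚ, ∀ y : s59lq_Tors W p, τ • y = y

/-- A **trivial prime** of `W` at `p`: `r ≠ p` prime, `r ≡ 1 mod p`, and there is a sign `ε = ±1`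
such that every Frobenius at every place over `r` acts on `E[p](ℚ̄)` as `ε`. -/
def s59lq_IsTrivialPrime (W : WeierstrassCurve ℤ) (p r : ℕ) : Prop :=
  r.Prime ∧ r ≠ p ∧ p ∣ r - 1 ∧
    ∃ ε : ℤ, (ε = 1 ∨ ε = -1) ∧
      ∀ A : ValuationSubring (AlgebraicClosure ℚ), A.LiesOverPrime r →
        ∀ τ : AlgebraicClosure ℚ ≃ₐ[ℚ] AlgebraicClosure ℚ, A.IsFrobeniusAt τ r →
          ∀ x : s59lq_Tors W p, τ • x = ε • x

/-- `ρ̄` is modular of a divisor of `M` prime to `q`. -/
def s59lq_Lowered (W : WeierstrassCurve ℤ) (p M q : ℕ) : Prop :=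
  ∃ M' : ℕ, M' ∣ M ∧ ¬ q ∣ M' ∧ W.IsResiduallyModularOfLevel p M'

/-- **LEAF MP (Mazur's principle for `W`)** on the triples `(p, q, M₁)` satisfying `R`. -/
def s59lq_StmtMPOn (R : ℕ → ℕ → ℕ → Prop) : Prop :=
  ∀ (p : ℕ) [Fact p.Prime] (W : WeierstrassCurve ℤ), W.Δ ≠ 0 → W.IsSemistableModel →
    W.ModRepIsIrreducible p → ∀ M₁ q : ℕ, R p q M₁ → 0 < M₁ → Squarefree (M₁ * q) → q.Prime →
    q ≠ p → ¬ q ∣ M₁ → s59lq_Unram W p q → W.IsResiduallyModularOfLevel p (M₁ * q) →
    W.IsResiduallyModularOfLevel p M₁ ∨ s59lq_IsTrivialPrime W p q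

/-- **LEAF TR (the K-machine for `W`)** at `p`: a level all of whose removable primes are trivial. -/
def s59lq_StmtTR (p : ℕ) : Prop :=
  ∀ [Fact p.Prime] (W : WeierstrassCurve ℤ), W.Δ ≠ 0 → W.IsSemistableModel →
    W.ModRepIsIrreducible p → ∀ M q : ℕ, Squarefree M → q.Prime → q ≠ p → q ∣ M →
    s59lq_Unram W p q → W.IsResiduallyModularOfLevel p M →
    (∀ r : ℕ, r.Prime → r ≠ p → r ∣ M → s59lq_Unram W p r → s59lq_IsTrivialPrime W p r) →
    s59lq_Lowered W p M q

/-- **LEAF RAISE**: raising the level is free. -/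
def s59lq_StmtRaise : Prop :=
  ∀ (W : WeierstrassCurve ℤ) (p M C : ℕ), C ≠ 0 → M ∣ C → W.IsResiduallyModularOfLevel p M →
    W.IsResiduallyModularOfLevel p C

/-- **THE WALL**: the frozen type of S38 at the prime `p`. -/
def s59lq_Wall (p : ℕ) : Prop :=
  ∀ [Fact p.Prime] (_hp2 : p ≠ 2) (W : WeierstrassCurve ℤ) (_hΔ : W.Δ ≠ 0)
    (_hW : W.IsSemistableModel)
    (hcard₁ : Nat.card (Submodule.torsionBy ℤ
      ((W.map (Int.castRingHom ℚ))⁄(AlgebraicClosure ℚ)).Point p) = p ^ 2)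
    (hker : GaloisFactorsThroughFiniteLevel
      (WeierstrassCurve.Affine.Point.galoisRepModuleEnd (K := AlgebraicClosure ℚ) ℚ
        (W.map (Int.castRingHom ℚ)) p))
    (_hirr : W.ModRepIsIrreducible p) (M q : ℕ) (hq : q.Prime) (hqp : q ≠ p)
    (hqM : q ∣ M) (hq2 : ¬ q ^ 2 ∣ M) (hM : Squarefree M)
    (hunr : ((W.map (Int.castRingHom ℚ)).residualGaloisRepOf p hcard₁ hker).IsUnramifiedAt q)
    (hres : W.IsResiduallyModularOfLevel p M),
    W.IsResiduallyModularOfLevel p (M / q)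

/-- Mazur's principle on a union of ranges. -/
theorem s59lq_stmtMPOn_union {R₁ R₂ : ℕ → ℕ → ℕ → Prop} (h₁ : s59lq_StmtMPOn R₁)
    (h₂ : s59lq_StmtMPOn R₂) : s59lq_StmtMPOn (fun p q M₁ => R₁ p q M₁ ∨ R₂ p q M₁) := by
  intro p _ W hΔ hW hirr M₁ q hR
  rcases hR with h | h
  · exact h₁ p W hΔ hW hirr M₁ q h
  · exact h₂ p W hΔ hW hirr M₁ q h

/-- Mazur's principle on a smaller range. -/
theorem s59lq_stmtMPOn_mono {R₁ R₂ : ℕ → ℕ → ℕ → Prop} (h₁ : s59lq_StmtMPOn R₁)
    (h : ∀ p q M₁, R₂ p q M₁ → R₁ p q M₁) : s59lq_StmtMPOn R₂ :=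
  fun p _ W hΔ hW hirr M₁ q hR => h₁ p W hΔ hW hirr M₁ q (h p q M₁ hR)

/-- the unramifiedness of the residual representation, pointwise -/
theorem s59lq_unram_of_residual (p : ℕ) [Fact p.Prime] (W : WeierstrassCurve ℤ)
    (hcard₁ : Nat.card (Submodule.torsionBy ℤ
      ((W.map (Int.castRingHom ℚ))⁄(AlgebraicClosure ℚ)).Point p) = p ^ 2)
    (hker : GaloisFactorsThroughFiniteLevel
      (WeierstrassCurve.Affine.Point.galoisRepModuleEnd (K := AlgebraicClosure ℚ) ℚ
        (W.map (Int.castRingHom ℚ)) p)) (q : ℕ)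
    (hunr : ((W.map (Int.castRingHom ℚ)).residualGaloisRepOf p hcard₁ hker).IsUnramifiedAt q) :
    s59lq_Unram W p q :=
  fun A hA τ hτ y => LinearMap.congr_fun (hunr A hA τ hτ) y

/-- **Strong induction on the level** (the `W`-form of `RIB.rib_lowered_of_not_dvd`). -/
theorem s59lq_lowered_of_leaves (p : ℕ) [hpF : Fact p.Prime]
    (hMP : s59lq_StmtMPOn (fun p' _ _ => p' = p)) (hTR : s59lq_StmtTR p)
    (W : WeierstrassCurve ℤ) (hΔ : W.Δ ≠ 0) (hW : W.IsSemistableModel)
    (hirr : W.ModRepIsIrreducible p) :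
    ∀ M : ℕ, Squarefree M → W.IsResiduallyModularOfLevel p M →
      ∀ q : ℕ, q.Prime → q ≠ p → q ∣ M → s59lq_Unram W p q → s59lq_Lowered W p M q := by
  intro M
  induction M using Nat.strong_induction_on with
  | _ M ih =>
    intro hM hres q hq hqp hqM hunr
    have hMpos : 0 < M := Nat.pos_of_ne_zero (by
      rintro rfl
      exact not_squarefree_zero hM)
    -- the step of Mazur's principle at a prime `r` of the level
    have step : ∀ r : ℕ, r.Prime → r ≠ p → r ∣ M → s59lq_Unram W p r →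
        (∃ M₁ : ℕ, M = M₁ * r ∧ ¬ r ∣ M₁ ∧ 0 < M₁ ∧ W.IsResiduallyModularOfLevel p M₁) ∨
          s59lq_IsTrivialPrime W p r := by
      intro r hr hrp hrM hur
      obtain ⟨M₁, hM₁⟩ : ∃ M₁, M = M₁ * r := ⟨M / r, (Nat.div_mul_cancel hrM).symm⟩
      have hM₁pos : 0 < M₁ := Nat.pos_of_ne_zero (by
        rintro rfl
        rw [zero_mul] at hM₁
        exact hMpos.ne' hM₁)
      have hrM₁ : ¬ r ∣ M₁ := by
        rintro ⟨k, hk⟩
        have h := hM r ⟨k, by rw [hM₁, hk]; ring⟩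
        exact hr.one_lt.ne' (Nat.isUnit_iff.1 h)
      have hsq : Squarefree (M₁ * r) := hM₁ ▸ hM
      have hres' : W.IsResiduallyModularOfLevel p (M₁ * r) := hM₁ ▸ hres
      rcases hMP p W hΔ hW hirr M₁ r rfl hM₁pos hsq hr hrp hrM₁ hur hres' with h | h
      · exact Or.inl ⟨M₁, hM₁, hrM₁, hM₁pos, h⟩
      · exact Or.inr h
    rcases step q hq hqp hqM hunr with ⟨M₁, hM₁, hqM₁, -, h⟩ | htriv
    · exact ⟨M₁, ⟨q, by rw [hM₁]⟩, hqM₁, h⟩
    · by_cases hall : ∀ r : ℕ, r.Prime → r ≠ p → r ∣ M → s59lq_Unram W p r →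
          s59lq_IsTrivialPrime W p r
      · exact hTR W hΔ hW hirr M q hM hq hqp hqM hunr hres hall
      · push Not at hall
        obtain ⟨r, hr, hrp, hrM, hur, hrt⟩ := hall
        rcases step r hr hrp hrM hur with ⟨M₁, hM₁, hrM₁, hM₁pos, h⟩ | h
        · have hM₁M : M₁ ∣ M := ⟨r, by rw [hM₁]⟩
          have hlt : M₁ < M := by
            rw [hM₁]
            calc M₁ = M₁ * 1 := (mul_one _).symm
              _ < M₁ * r := Nat.mul_lt_mul_of_pos_left hr.one_lt hM₁pos
          have hqr : q ≠ r := fun hqr => hrt (hqr ▸ htriv)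
          have hqM₁ : q ∣ M₁ := by
            rw [hM₁] at hqM
            rcases (Nat.Prime.dvd_mul hq).1 hqM with h' | h'
            · exact h'
            · exact absurd ((Nat.prime_dvd_prime_iff_eq hq hr).1 h') hqr
          obtain ⟨M', hM', hqM', hmod'⟩ :=
            ih M₁ hlt (hM.squarefree_of_dvd hM₁M) h q hq hqp hqM₁ hunr
          exact ⟨M', hM'.trans hM₁M, hqM', hmod'⟩
        · exact absurd h hrt

/-- **GLUE**: the leaves give the wall (the frozen type of S38 at `p`). -/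
theorem s59lq_wall_of_leaves (p : ℕ) (hMP : s59lq_StmtMPOn (fun p' _ _ => p' = p))
    (hTR : s59lq_StmtTR p) (hRaise : s59lq_StmtRaise) : s59lq_Wall p := by
  intro _ _hp2 W hΔ hW hcard₁ hker hirr M q hq hqp hqM hq2 hM hunr hres
  have hunr' := s59lq_unram_of_residual p W hcard₁ hker q hunr
  obtain ⟨M', hM'M, hqM', hmod'⟩ :=
    s59lq_lowered_of_leaves p hMP hTR W hΔ hW hirr M hM hres q hq hqp hqM hunr'
  have hMpos : 0 < M := Nat.pos_of_ne_zero (by
    rintro rfl
    exact not_squarefree_zero hM)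
  have hdiv : M' ∣ M / q := by
    have hco : Nat.Coprime M' q := (Nat.Coprime.symm ((Nat.Prime.coprime_iff_not_dvd hq).2 hqM'))
    have h1 : M' ∣ (M / q) * q := by rw [Nat.div_mul_cancel hqM]; exact hM'M
    exact hco.dvd_of_dvd_mul_right h1
  have hne : M / q ≠ 0 := by
    intro h0
    have := Nat.div_mul_cancel hqM
    rw [h0, zero_mul] at this
    exact hMpos.ne' this.symm
  exact hRaise W p M' (M / q) hne hdiv hmod'

end Fermat.Agent.S59.LowQ

end
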