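/-
S59, wall M2 (LOWER-Q for a general semistable `W`; deputy helper3), piece **M2-UPG**.

In the frozen shape of S38 the curve `W` is FIXED, and `W.IsResiduallyModularOfLevel p (M / q)`
asks for the congruence `a_ℓ(g) ≡ a_ℓ(W) mod 𝔪` at EVERY good prime `ℓ ∤ (M / q) p` — including
`ℓ = q` when `W` has good reduction at `q`.  Mazur's principle and the K-machine only give the
congruence outside a finite set of primes.  This file closes the gap, for every prime `p`: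

* `s59lq_upg` : `g` a normalised eigenform of level `M`, `𝔪 ∋ p` maximal, `E[p]` irreducible; if
  `a_ℓ(g) ≡ a_ℓ(W) mod 𝔪` for all good `ℓ ∤ M p` outside a finite set `S`, then the congruence
  holds at EVERY good prime `q ∤ M p` (`q = 2` included: `RED.frobRel_of_model_all`).
* `s59lq_upg_resid` : the same, as `W.IsResiduallyModularOfLevel p M`.

Proof: the residual representation `ρ_g` of S29 and `E[p]` factor through a common finite Galois
level `F`; by weak Chebotarev a Frobenius `σ` at `q` agrees on `F` with a power `τ ^ m` of a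
Frobenius at a prime `ℓ ∉ S ∪ {bad}`; the characteristic polynomials of `ρ_g(τ)` and `ρ̄_W(τ)`
agree, hence so do the traces of the `m`-th powers (Lucas sequence), i.e. the traces at `σ`.
-/
import Fermat.Agent.S29
import Fermat.Agent.RED.ModelTrace
import Fermat.Agent.RED.LinkAll
import Fermat.Agent.S31.Lucas
import Fermat.Agent.S34.Reduction
import Fermat.Agent.Common.FrobExists
import Fermat.Agent.Cheb.Final
import Fermat.Agent.EC.Cmp

set_option autoImplicit false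
set_option linter.unusedSectionVars false
set_option linter.unusedVariables false
set_option linter.style.longLine false

noncomputable section

namespace Fermat.Agent.S59.LowQ

open WeierstrassCurve WeierstrassCurve.Affine WeierstrassCurve.Affine.Point
open Fermat.Agent.EC.DetChar Polynomial

/-- two elements of `ℤ̄` with the same image in `ℂ` are equal -/
theorem s59lq_zbar_ext {a b : integralClosure ℤ ℂ} (h : (a : ℂ) = (b : ℂ)) : a = b :=
  Subtype.ext h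

/-- **M2-UPG.**  Congruence outside a finite set of primes ⇒ congruence at every good prime
not dividing `M p`. -/
theorem s59lq_upg (W : WeierstrassCurve ℤ) (hΔ : W.Δ ≠ 0) (p : ℕ) [hpF : Fact p.Prime]
    (hirr : W.ModRepIsIrreducible p) {M : ℕ} (hM : 0 < M)
    (g : CuspForm (CongruenceSubgroup.Gamma0 M) 2) (hg : g.IsNormalizedEigenform)
    (𝔪 : Ideal (integralClosure ℤ ℂ)) (hm : 𝔪.IsMaximal)
    (hpm : (p : integralClosure ℤ ℂ) ∈ 𝔪) (S : Finset ℕ)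
    (hcong : ∀ ℓ : ℕ, ℓ.Prime → ℓ ∉ S → W.IsGoodPrimeFor ℓ → ¬ ℓ ∣ M → ℓ ≠ p →
      ∃ a : integralClosure ℤ ℂ, (a : ℂ) = ModularFormClass.qCoeff g ℓ ∧
        a - ((W.apOfModel ℓ : ℤ) : integralClosure ℤ ℂ) ∈ 𝔪)
    (q : ℕ) (hq : q.Prime) (hqg : W.IsGoodPrimeFor q) (hqM : ¬ q ∣ M) (hqp : q ≠ p) :
    ∃ a : integralClosure ℤ ℂ, (a : ℂ) = ModularFormClass.qCoeff g q ∧
      a - ((W.apOfModel q : ℤ) : integralClosure ℤ ℂ) ∈ 𝔪 := by
  classical
  have hp : p.Prime := hpF.out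
  haveI := hm
  letI : Field (integralClosure ℤ ℂ ⧸ 𝔪) := Ideal.Quotient.field 𝔪
  set φ : integralClosure ℤ ℂ →+* (integralClosure ℤ ℂ ⧸ 𝔪) := Ideal.Quotient.mk 𝔪 with hφ
  haveI hchar : CharP (integralClosure ℤ ℂ ⧸ 𝔪) p := by
    rw [CharP.charP_iff_prime_eq_zero hp]
    have : φ (p : integralClosure ℤ ℂ) = 0 := Ideal.Quotient.eq_zero_iff_mem.mpr hpm
    rwa [map_natCast] at this
  -- the residual representation of `g`
  obtain ⟨ρ, hatt, -⟩ := Fermat.Agent.S29.result hg hp φ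
  -- a prime `ℓ ≠ p` is non-zero in the residue field
  have hne : ∀ ℓ : ℕ, ℓ.Prime → ℓ ≠ p → ((ℓ : ℕ) : integralClosure ℤ ℂ ⧸ 𝔪) ≠ 0 := by
    intro ℓ hℓ hℓp h0
    rw [CharP.cast_eq_zero_iff (integralClosure ℤ ℂ ⧸ 𝔪) p] at h0
    exact hℓp ((Nat.prime_dvd_prime_iff_eq hp hℓ).1 h0).symm
  -- a Frobenius at `q`
  obtain ⟨A, hA⟩ := Fermat.Agent.Common.exists_liesOverPrime q hq
  obtain ⟨σ, hσ⟩ := Fermat.Agent.Common.exists_isFrobeniusAt_of_liesOverPrime q hq A hA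
  obtain ⟨a, ha, hcp⟩ := hatt q hq hqM (hne q hq hqp) A hA σ hσ
  refine ⟨a, ha, ?_⟩
  have htrσ : LinearMap.trace (integralClosure ℤ ℂ ⧸ 𝔪) ρ.V (ρ.ρ σ) = φ a :=
    Fermat.Agent.S31.trace_of_charpoly ρ.finrank_eq (ρ.ρ σ) _ _ hcp
  -- the levels
  have hcard := Fermat.Agent.RED.card_torsQbar W hΔ hp.ne_zero
  haveI hfinE : Finite (TorsQbar (W.map (Int.castRingHom ℚ)) p) := finite_of_card hcard
  haveI : Module.Finite (ZMod p) (TorsQbar (W.map (Int.castRingHom ℚ)) p) :=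
    Module.Finite.of_finite
  have hrk : Module.finrank (ZMod p) (TorsQbar (W.map (Int.castRingHom ℚ)) p) = 2 :=
    finrank_of_card hcard
  haveI : NeZero p := ⟨hp.ne_zero⟩
  obtain ⟨F₁, hF₁fin, -, hF₁, -⟩ := exists_level (E := W.map (Int.castRingHom ℚ)) hfinE p
  obtain ⟨L₁, hL₁fin, hL₁⟩ := ρ.factorsThroughFiniteLevel
  haveI := hL₁fin
  haveI := hF₁fin
  obtain ⟨F, hFfin, hFgal, hL₁F, hF₁F⟩ := Fermat.Agent.EC.cmp_exists_galois_hull L₁ F₁
  haveI := hFfin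
  haveI := hFgal
  -- weak Chebotarev
  obtain ⟨ℓ, A', τ, m, hℓ, hℓS, hA', hτ, hagree⟩ :=
    Fermat.Agent.Cheb.exists_frobenius_pow_eq F
      (S ∪ (Fermat.Agent.RED.excSetAll W p ∪ M.primeFactors)) σ
  rw [Finset.mem_union, Finset.mem_union, not_or, not_or] at hℓS
  obtain ⟨hℓS0, hℓexc, hℓMf⟩ := hℓS
  obtain ⟨hℓdp, hℓg⟩ := (Fermat.Agent.RED.not_mem_excSetAll_iff W hΔ hp.ne_zero hℓ).1 hℓexc
  have hℓp : ℓ ≠ p := by
    rintro rfl
    exact hℓdp dvd_rfl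
  have hℓM : ¬ ℓ ∣ M := fun h => hℓMf (Nat.mem_primeFactors.mpr ⟨hℓ, h, hM.ne'⟩)
  -- `ρ σ = ρ (τ ^ m)` and `ρ̄ σ = ρ̄ (τ ^ m)`
  have hρeq : ρ.ρ σ = ρ.ρ (τ ^ m) := by
    have h1 : ρ.ρ (σ⁻¹ * τ ^ m) = 1 := by
      apply hL₁
      intro x hx
      rw [AlgEquiv.mul_apply, hagree x (hL₁F hx)]
      exact σ.symm_apply_apply x
    have h2 : τ ^ m = σ * (σ⁻¹ * τ ^ m) := by group
    rw [h2, map_mul, h1, mul_one]
  have hEeq : rhoBar (W.map (Int.castRingHom ℚ)) p (τ ^ m) =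
      rhoBar (W.map (Int.castRingHom ℚ)) p σ :=
    hF₁ _ _ fun x hx => hagree x (hF₁F hx)
  -- the characteristic polynomials at `τ`
  obtain ⟨aℓ, haℓ, hcpℓ⟩ := hatt ℓ hℓ hℓM (hne ℓ hℓ hℓp) A' hA' τ hτ
  obtain ⟨a', ha', hmem'⟩ := hcong ℓ hℓ hℓS0 hℓg hℓM hℓp
  have haa : aℓ = a' := s59lq_zbar_ext (haℓ.trans ha'.symm)
  have hφaℓ : φ aℓ = ((W.apOfModel ℓ : ℤ) : integralClosure ℤ ℂ ⧸ 𝔪) := by
    rw [haa, ← map_intCast φ]
    exact (Ideal.Quotient.mk_eq_mk_iff_sub_mem _ _).2 hmem'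
  have htrE : LinearMap.trace (ZMod p) (TorsQbar (W.map (Int.castRingHom ℚ)) p)
      (rhoBar (W.map (Int.castRingHom ℚ)) p τ) = (W.apOfModel ℓ : ZMod p) :=
    Fermat.Agent.RED.galoisTrace_frob_of_model_all W hΔ hirr hℓ hℓp hℓg hA' hτ
  have hdetE : LinearMap.det (rhoBar (W.map (Int.castRingHom ℚ)) p τ) = (ℓ : ZMod p) := by
    rw [Fermat.Agent.RED.det_of_model W hΔ hirr τ,
      Fermat.Agent.S42.cycloChar_frob p hp ℓ hℓ hℓp A' hA' τ hτ]
  have hcpE : LinearMap.charpoly (rhoBar (W.map (Int.castRingHom ℚ)) p τ) =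
      X ^ 2 - C ((W.apOfModel ℓ : ZMod p)) * X + C ((ℓ : ZMod p)) := by
    rw [Fermat.Agent.S34.charpoly_eq_of_finrank_two hrk, htrE, hdetE]
  -- the traces of the powers
  have h1 := Fermat.Agent.S31.trace_pow_eq_lucasS ρ.finrank_eq (ρ.ρ τ) _ _ hcpℓ m
  have h2 := Fermat.Agent.S31.trace_pow_eq_lucasS hrk
    (rhoBar (W.map (Int.castRingHom ℚ)) p τ) _ _ hcpE m
  have hpow1 : ρ.ρ (τ ^ m) = ρ.ρ τ ^ m := map_pow ρ.ρ τ m
  have hpow2 : rhoBar (W.map (Int.castRingHom ℚ)) p (τ ^ m) =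
      rhoBar (W.map (Int.castRingHom ℚ)) p τ ^ m := map_pow _ τ m
  rw [← hpow1, ← hρeq, htrσ, hφaℓ] at h1
  rw [← hpow2, hEeq] at h2
  have htrq : LinearMap.trace (ZMod p) (TorsQbar (W.map (Int.castRingHom ℚ)) p)
      (rhoBar (W.map (Int.castRingHom ℚ)) p σ) = (W.apOfModel q : ZMod p) :=
    Fermat.Agent.RED.galoisTrace_frob_of_model_all W hΔ hirr hq hqp hqg hA hσ
  rw [htrq] at h2
  -- transport to the residue field
  let ι : ZMod p →+* (integralClosure ℤ ℂ ⧸ 𝔪) := ZMod.castHom (dvd_refl p) _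
  have h3 := congrArg ι h2
  simp only [Fermat.Agent.S31.lucasS_map, map_intCast, map_natCast] at h3
  have hfin : φ a = φ ((W.apOfModel q : ℤ) : integralClosure ℤ ℂ) := by
    rw [map_intCast, h1, h3]
  exact (Ideal.Quotient.mk_eq_mk_iff_sub_mem _ _).1 hfin

/-- **M2-UPG, residual form**: the congruence outside a finite set `S` gives
`W.IsResiduallyModularOfLevel p M`. -/
theorem s59lq_upg_resid (W : WeierstrassCurve ℤ) (hΔ : W.Δ ≠ 0) (p : ℕ) [hpF : Fact p.Prime]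
    (hirr : W.ModRepIsIrreducible p) {M : ℕ} (hM : 0 < M)
    (g : CuspForm (CongruenceSubgroup.Gamma0 M) 2) (hg : g.IsNormalizedEigenform)
    (𝔪 : Ideal (integralClosure ℤ ℂ)) (hm : 𝔪.IsMaximal)
    (hpm : (p : integralClosure ℤ ℂ) ∈ 𝔪) (S : Finset ℕ)
    (hcong : ∀ ℓ : ℕ, ℓ.Prime → ℓ ∉ S → W.IsGoodPrimeFor ℓ → ¬ ℓ ∣ M → ℓ ≠ p →
      ∃ a : integralClosure ℤ ℂ, (a : ℂ) = ModularFormClass.qCoeff g ℓ ∧
        a - ((W.apOfModel ℓ : ℤ) : integralClosure ℤ ℂ) ∈ 𝔪) :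
    W.IsResiduallyModularOfLevel p M :=
  ⟨g, 𝔪, hg, hm, hpm, fun ℓ hℓ hℓg hℓM hℓp =>
    s59lq_upg W hΔ p hirr hM g hg 𝔪 hm hpm S hcong ℓ hℓ hℓg hℓM hℓp⟩

end Fermat.Agent.S59.LowQ

end
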