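/-
S59, wall M2 (LOWER-Q for a general `W`, Mazur's principle; deputy helper3), piece **M2-GLUE**.

The `W`-form of `RIB.MP.ribmp_glue_on` (row 37 proves the Frey form): for an integral model `W`
with `Δ ≠ 0` and irreducible `E[p]`, residually modular of a squarefree level `M₁ q` prime to `p`,
with `E[p]` unramified at the odd prime `q ≠ p`:

* `s59lq_glue_on` : `W.IsResiduallyModularOfLevel p M₁` (the SAME `W`: the congruence at `ℓ = q` is
  supplied by `s59lq_upg`), or `q` is a TRIVIAL prime (`q ≡ 1 mod p`, Frobenius at `q` acts on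
  `E[p]` through `± 1`);
* `s59lq_StmtPkg C` : the package `AtQCore M₁ q p J` exists on the range `C p q M₁`;
  `s59lq_pkgE : s59lq_StmtPkg s59lq_RangeA` (from the landed `RIB.MP.ribmp_final_stmtAtQE`);
* `s59lq_stmtMP_of_pkg : s59lq_StmtPkg C → s59lq_StmtMPOn C` (any range with `p ≠ 2`);
* `s59lq_stmtMP_A` : LEAF MP of `Plan.lean` on the range `5 ≤ p`, `q ≠ 2`,
  `5 ≤ q ∨ (5 - q) ∣ M₁` (levels divisible by `p` allowed), unconditional;
* `s59lq_stmtRaise` : LEAF RAISE of `Plan.lean`, unconditional;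
* `s59lq_main` : the frozen shape of S38 in the range `q ≢ 1 mod p` of M2.
-/
import Fermat.Agent.RIB.MP.GlueAbs
import Fermat.Agent.RIB.MP.PkgQ
import Fermat.Agent.RIB.MP.Final
import Fermat.Agent.RIB.MP.RepN
import Fermat.Agent.R38.Lift
import Fermat.Agent.S59.LowQ.Upg
import Fermat.Agent.S59.LowQ.Plan
import Fermat.Agent.S58.Stab

set_option autoImplicit false
set_option linter.unusedSectionVars false
set_option linter.unusedVariables false
set_option linter.style.longLine false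

noncomputable section

namespace Fermat.Agent.S59.LowQ

section pkg

open ModularCurve AlgebraicCurve Fermat.Agent.ES Fermat.Agent.STB ExtCitation Fermat.Agent.R38
open Fermat.Agent.RIB.MP

/-- **MP-PKG** on the pairs `(M₁, q)` satisfying `C`, levels divisible by `p` ALLOWED
(`RIB.MP.StmtPkgQOn` without its unused hypothesis `¬ p ∣ M₁`). -/
def s59lq_StmtPkg (C : ℕ → ℕ → ℕ → Prop) : Prop :=
  ∀ (M₁ q p : ℕ) [NeZero M₁], C p q M₁ → p.Prime → p ≠ 2 → q.Prime → q ≠ p → ¬ q ∣ M₁ →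
    Squarefree (M₁ * q) →
    ∃ (J : Type) (_ : AddCommGroup J) (_ : Module HeckeAlg J) (_ : DistribMulAction GQ J),
      AtQCore M₁ q p J

/-- the range of Mazur's principle as landed in row 37 -/
def s59lq_RangeA (p q M₁ : ℕ) : Prop := 5 ≤ p ∧ q ≠ 2 ∧ (5 ≤ q ∨ (5 - q) ∣ M₁)

/-- **MP-PKG on the range A** from the `J`-form of Mazur's principle. -/
theorem s59lq_pkgE_of (hAtQ : StmtAtQE) : s59lq_StmtPkg s59lq_RangeA := by
  intro M₁ q p _ hR hp _ hq hqp hqM₁ hsq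
  obtain ⟨hp5, hq2, hE⟩ := hR
  haveI : NeZero q := ⟨hq.ne_zero⟩
  haveI : NeZero (M₁ * q) := ⟨Nat.mul_ne_zero (NeZero.ne M₁) hq.ne_zero⟩
  haveI : Fact p.Prime := ⟨hp⟩
  refine ⟨PDiv (M₁ * q) p, inferInstance, pDivModule (M₁ * q) p, pDivGalois (M₁ * q) p, ?_⟩
  letI := pDivModule (M₁ * q) p
  letI := pDivGalois (M₁ * q) p
  refine ⟨ribmp_pkg_es (M₁ * q) p, ribmp_pkg_w hq hqM₁ p, ?_, ?_, ?_⟩
  · intro x
    exact Subtype.ext (ribmp_pkg_w_invol hq hqM₁ (x : JZero (M₁ * q)))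
  · intro σ x
    exact Subtype.ext (ribmp_pkg_w_galois hq hqM₁ σ (x : JZero (M₁ * q)))
  · intro A hA σ hσ x hx hin t₀ ht₀ hK n₀ hn₀ hpn₀ ℓ₁ hℓ₁ n₁ hn₁ hpn₁
    have hG : ∀ ℓ ∈ goodPrimes (M₁ * q) p, ¬ (ℓ : ℕ) ∣ M₁ := fun ℓ hℓ h =>
      hℓ (Dvd.dvd.mul_right (Dvd.dvd.mul_right h q) p)
    have hKL : KillsLevel M₁ t₀ := killsLevel_of_forms (goodPrimes (M₁ * q) p) hG ht₀ hK
    have hin' : InertiaFixed A (x : JZero (M₁ * q)) := fun τ hτ =>
      congrArg Subtype.val (hin τ hτ)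
    have hn₁' : heckeOperatorBar (M₁ * q) ℓ₁ (x : JZero (M₁ * q)) =
        n₁ • (x : JZero (M₁ * q)) := by
      rw [← ribmp_pkg_heckeGen_coe (M₁ * q) p ℓ₁ hℓ₁ x, hn₁]
      rfl
    have key := hAtQ M₁ q hq hqM₁ hE hsq hq2 p hp hp5 hqp.symm A hA
      σ hσ x hx hin' ℓ₁ n₁ hℓ₁ hn₁' hpn₁ t₀ ht₀ hKL n₀ hn₀ hpn₀
    apply Subtype.ext
    exact key

/-- **MP-PKG on the range A**, unconditional. -/
theorem s59lq_pkgE : s59lq_StmtPkg s59lq_RangeA :=
  s59lq_pkgE_of ribmp_final_stmtAtQE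

end pkg

section glue

open ModularCurve Fermat.Agent.ES ExtCitation Fermat.Agent.R38 Fermat.Agent.EC
open Fermat.Agent.RIB.MP
open WeierstrassCurve WeierstrassCurve.Affine WeierstrassCurve.Affine.Point
open scoped WeierstrassCurve.Affine

/-- **M2-GLUE (abstract form)**: the `W`-form of `ribmp_glue_on`. -/
theorem s59lq_glue_on (Cq : ℕ → ℕ → ℕ → Prop) (hLift : StmtLift) (hRep : StmtRepN)
    (hPkg : s59lq_StmtPkg Cq) (W : WeierstrassCurve ℤ) (hΔ : W.Δ ≠ 0) (p : ℕ) [hpF : Fact p.Prime]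
    (hp2 : p ≠ 2) (hirrW : W.ModRepIsIrreducible p) (M₁ q : ℕ) (hM₁ : 0 < M₁)
    (hCq : Cq p q M₁) (hsq : Squarefree (M₁ * q)) (hq : q.Prime)
    (hqp : q ≠ p) (hqM₁ : ¬ q ∣ M₁) (hunrW : s59lq_Unram W p q)
    (hres : W.IsResiduallyModularOfLevel p (M₁ * q)) :
    W.IsResiduallyModularOfLevel p M₁ ∨ s59lq_IsTrivialPrime W p q := by
  have hpp : p.Prime := hpF.out
  have hNpos : 0 < M₁ * q := Nat.mul_pos hM₁ hq.pos
  have : NeZero M₁ := ⟨hM₁.ne'⟩
  obtain ⟨f, 𝔪, hf, hm, hpm, hcong⟩ := hres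
  by_cases hold : ∀ t ∈ MvPolynomial.supported ℤ (goodAt W (M₁ * q) p), KillsForms M₁ t →
      (p : ℤ) ∣ MvPolynomial.aeval (fun ℓ : Nat.Primes => W.apOfModel ℓ) t
  · -- OLD case
    left
    obtain ⟨g, 𝔪', hg, hm', hpm', hcong'⟩ := hLift M₁ p hpp (goodAt W (M₁ * q) p) _
      (fun ℓ hℓ h => hℓ.1 (Dvd.dvd.mul_right (Dvd.dvd.mul_right h q) p)) hold
    refine s59lq_upg_resid W hΔ p hirrW hM₁ g hg 𝔪' hm' hpm' {q} ?_
    intro ℓ hℓ hℓS hℓg hℓM hℓp
    have hℓq : ℓ ≠ q := fun h => hℓS (by rw [h]; exact Finset.mem_singleton_self q)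
    have hℓNp : ¬ ℓ ∣ M₁ * q * p := by
      intro h
      rcases (Nat.Prime.dvd_mul hℓ).1 h with h | h
      · rcases (Nat.Prime.dvd_mul hℓ).1 h with h | h
        · exact hℓM h
        · exact hℓq ((Nat.prime_dvd_prime_iff_eq hℓ hq).1 h)
      · exact hℓp ((Nat.prime_dvd_prime_iff_eq hℓ hpp).1 h)
    exact hcong' ⟨ℓ, hℓ⟩ ⟨hℓNp, hℓg⟩
  · -- NEW case
    right
    push Not at hold
    obtain ⟨t₀, ht₀S, ht₀K, hn₀⟩ := hold
    obtain ⟨J, _, _, _, hJ⟩ := hPkg M₁ q p hCq hpp hp2 hq hqp hqM₁ hsq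
    obtain ⟨v, hv0, hpv, hv⟩ := ribmp_exists_eigenvector W hJ.es f hf 𝔪 hm hpm hcong
    obtain ⟨V₀, e, hV₀p, hV₀eig, hst, he⟩ :=
      hRep W hΔ p hpp hp2 hirrW (M₁ * q) hNpos J _ _ _ hJ.es v hv0 hpv hv
    have ht₀g : t₀ ∈ MvPolynomial.supported ℤ (goodPrimes (M₁ * q) p) :=
      MvPolynomial.supported_mono (goodAt_subset W (M₁ * q) p) ht₀S
    have hpoly := glue_poly_eigen V₀ (goodAt W (M₁ * q) p)
      (fun ℓ : Nat.Primes => W.apOfModel ℓ) hV₀eig
    set n₀ : ℤ := MvPolynomial.aeval (fun ℓ : Nat.Primes => W.apOfModel ℓ) t₀ with hn₀def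
    -- a non-Eisenstein prime
    obtain ⟨ℓ, hℓ, hℓS, -, hℓp, hℓg, -, hℓE⟩ :=
      Fermat.Agent.RED.exists_prime_not_dvd_of_model W hΔ hp2 hirrW
        (M₁ * q * p).primeFactors (M := 1) one_pos
    have hℓmem : (⟨ℓ, hℓ⟩ : Nat.Primes) ∈ goodAt W (M₁ * q) p := by
      refine ⟨fun h => hℓS ?_, hℓg⟩
      rw [Nat.mem_primeFactors]
      exact ⟨hℓ, h, (Nat.mul_pos hNpos hpp.pos).ne'⟩
    have hunrV : ∀ A : ValuationSubring Qb, A.LiesOverPrime q →
        ∀ τ ∈ A.inertiaSubgroupIn ℚ, ∀ x ∈ V₀, τ • x = x := by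
      intro A hA τ hτ x hx
      have h := hunrW A hA τ hτ (e ⟨x, hx⟩)
      rw [← he τ ⟨x, hx⟩] at h
      exact congrArg Subtype.val (e.injective h)
    obtain ⟨w, hw2, hwσ, hatq⟩ := hJ.atq
    have hkey : ∀ A : ValuationSubring Qb, A.LiesOverPrime q → ∀ σ : GQ, A.IsFrobeniusAt σ q →
        ∀ x ∈ V₀, σ • w x + q • x = 0 := by
      intro A hA σ hσ x hx
      exact hatq A hA σ hσ x (hV₀p x hx) (fun τ hτ => hunrV A hA τ hτ x hx) t₀ ht₀g ht₀K n₀
        (hpoly t₀ ht₀S x hx) hn₀ ⟨ℓ, hℓ⟩ (goodAt_subset W (M₁ * q) p hℓmem) (W.apOfModel ℓ)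
        (hV₀eig x hx _ hℓmem) hℓE
    -- a Frobenius at `q`
    obtain ⟨A₀, hA₀⟩ := Fermat.Agent.Common.exists_liesOverPrime q hq
    obtain ⟨σ₀, hσ₀⟩ := Fermat.Agent.Common.exists_isFrobeniusAt_of_liesOverPrime q hq A₀ hA₀
    -- `w` preserves `V₀`
    have hwV : ∀ x ∈ V₀, w x ∈ V₀ := by
      intro x hx
      have h := hkey A₀ hA₀ σ₀ hσ₀ x hx
      have h2 : w x = σ₀⁻¹ • (-(q • x)) := by
        rw [← eq_neg_iff_add_eq_zero] at h
        rw [← h, inv_smul_smul]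
      rw [h2]
      exact hst σ₀⁻¹ _ (V₀.neg_mem (V₀.nsmul_mem hx q))
    -- the involution on `E[p]`
    have hesymm : ∀ (σ : GQ) (y : ETors W p),
        ((e.symm (σ • y) : V₀) : J) = σ • ((e.symm y : V₀) : J) := by
      intro σ y
      have h := he σ (e.symm y)
      rw [e.apply_symm_apply] at h
      rw [← h, e.symm_apply_apply]
    let ψ : ETors W p →+ ETors W p :=
      AddMonoidHom.mk' (fun y => e ⟨w (e.symm y : V₀), hwV _ (e.symm y).2⟩) (by
        intro a b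
        rw [← map_add]
        congr 1
        apply Subtype.ext
        simp only [map_add, AddSubgroup.coe_add])
    have hψdef : ∀ y, ψ y = e ⟨w (e.symm y : V₀), hwV _ (e.symm y).2⟩ := fun _ => rfl
    have hψ2 : ∀ y, ψ (ψ y) = y := by
      intro y
      rw [hψdef (ψ y)]
      have : (e.symm (ψ y) : V₀) = ⟨w (e.symm y : V₀), hwV _ (e.symm y).2⟩ := by
        rw [hψdef, e.symm_apply_apply]
      have h3 : (⟨w (e.symm (ψ y) : V₀), hwV _ (e.symm (ψ y)).2⟩ : V₀) = e.symm y := by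
        apply Subtype.ext
        show w ((e.symm (ψ y) : V₀) : J) = _
        rw [this]
        exact hw2 _
      rw [h3, e.apply_symm_apply]
    have hψσ : ∀ (σ : GQ) (y : ETors W p), ψ (σ • y) = σ • ψ y := by
      intro σ y
      rw [hψdef, hψdef, ← he σ ⟨w (e.symm y : V₀), hwV _ (e.symm y).2⟩]
      congr 1
      apply Subtype.ext
      show w ((e.symm (σ • y) : V₀) : J) = σ • w ((e.symm y : V₀) : J)
      rw [hesymm, hwσ]
    -- `w = ε` on `V₀`
    obtain ⟨ε, hε, hwε⟩ : ∃ ε : ℤ, (ε = 1 ∨ ε = -1) ∧ ∀ x ∈ V₀, w x = ε • x := by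
      rcases ribmp_involution (W.map (Int.castRingHom ℚ)) p hirrW ψ hψ2 hψσ with h1 | h1
      · refine ⟨1, Or.inl rfl, fun x hx => ?_⟩
        have h := h1 (e ⟨x, hx⟩)
        rw [hψdef] at h
        have h' := congrArg Subtype.val (e.injective h)
        simp only [e.symm_apply_apply] at h'
        rw [one_smul]
        exact h'
      · refine ⟨-1, Or.inr rfl, fun x hx => ?_⟩
        have h := h1 (e ⟨x, hx⟩)
        rw [hψdef, ← map_neg] at h
        have h' := congrArg Subtype.val (e.injective h)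
        simp only [e.symm_apply_apply] at h'
        rw [neg_smul, one_smul]
        exact h'
    have hε2 : ε * ε = 1 := by rcases hε with rfl | rfl <;> norm_num
    -- every Frobenius at `q` acts on `V₀` through `c = - ε q`
    have hscV : ∀ A : ValuationSubring Qb, A.LiesOverPrime q → ∀ σ : GQ, A.IsFrobeniusAt σ q →
        ∀ x ∈ V₀, σ • x = (-(ε * (q : ℤ))) • x := by
      intro A hA σ hσ x hx
      have h := hkey A hA σ hσ x hx
      rw [hwε x hx, ← eq_neg_iff_add_eq_zero] at h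
      have h1 : σ • (ε • x) = ε • (σ • x) :=
        map_zsmul (DistribSMul.toAddMonoidHom J σ) ε x
      rw [h1] at h
      calc σ • x = (ε * ε) • (σ • x) := by rw [hε2, one_smul]
        _ = ε • (ε • (σ • x)) := by rw [mul_smul]
        _ = ε • (-(q • x)) := by rw [h]
        _ = (-(ε * (q : ℤ))) • x := by
          rw [neg_smul, mul_smul, smul_neg, natCast_zsmul]
    have hscE : ∀ A : ValuationSubring Qb, A.LiesOverPrime q → ∀ σ : GQ, A.IsFrobeniusAt σ q →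
        ∀ y : ETors W p, σ • y = (-(ε * (q : ℤ))) • y := by
      intro A hA σ hσ y
      obtain ⟨x, rfl⟩ := e.surjective y
      rw [← he σ x, ← map_zsmul]
      congr 1
      exact Subtype.ext (hscV A hA σ hσ x x.2)
    -- `q ≡ 1 mod p`
    have hsq' := ribmp_scalar_sq W hΔ p hirrW hq hqp A₀ hA₀ σ₀ hσ₀ _ (hscE A₀ hA₀ σ₀ hσ₀)
    have hq0 : (q : ZMod p) ≠ 0 := by
      rw [Ne, ZMod.natCast_eq_zero_iff]
      exact fun h => hqp ((Nat.prime_dvd_prime_iff_eq hpp hq).1 h).symm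
    have hq1 : (q : ZMod p) = 1 := by
      have h : (q : ZMod p) * (q : ZMod p) = (q : ZMod p) * 1 := by
        have hε' : ((ε : ZMod p)) * (ε : ZMod p) = 1 := by
          exact_mod_cast congrArg (Int.cast : ℤ → ZMod p) hε2
        push_cast at hsq'
        calc (q : ZMod p) * (q : ZMod p)
            = ((ε : ZMod p) * (ε : ZMod p)) * ((q : ZMod p) * (q : ZMod p)) := by
              rw [hε', one_mul]
          _ = (-((ε : ZMod p) * (q : ZMod p))) ^ 2 := by ring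
          _ = (q : ZMod p) * 1 := by rw [hsq', mul_one]
      exact mul_left_cancel₀ hq0 h
    have hpq : p ∣ q - 1 := by
      have h1 : ((q : ℕ) : ZMod p) = ((1 : ℕ) : ZMod p) := by rw [hq1, Nat.cast_one]
      rw [ZMod.natCast_eq_natCast_iff] at h1
      exact (Nat.modEq_iff_dvd' hq.one_le).1 h1.symm
    -- the scalar is `- ε` on `p`-torsion
    have hscE' : ∀ A : ValuationSubring Qb, A.LiesOverPrime q → ∀ σ : GQ, A.IsFrobeniusAt σ q →
        ∀ y : ETors W p, σ • y = (-ε) • y := by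
      intro A hA σ hσ y
      rw [hscE A hA σ hσ y]
      obtain ⟨k, hk⟩ := hpq
      have hqk : (q : ℤ) = 1 + (p : ℤ) * k := by
        have : q = 1 + p * k := by have := hq.one_le; omega
        exact_mod_cast this
      have hpy : (p : ℤ) • y = 0 := Submodule.smul_torsionBy _ y
      have h0 : ((ε * k) * (p : ℤ)) • y = 0 := by rw [mul_smul, hpy, smul_zero]
      have h1 : -(ε * (1 + (p : ℤ) * k)) = -ε + -((ε * k) * (p : ℤ)) := by ring
      rw [hqk, h1, add_smul, neg_smul ((ε * k) * (p : ℤ)), h0, _root_.neg_zero, _root_.add_zero]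
    exact ⟨hq, hqp, hpq, -ε, by rcases hε with rfl | rfl <;> simp, hscE'⟩

/-- **LEAF MP from a package**: on any range `C` (with `p ≠ 2`) on which the package `AtQCore`
exists, Mazur's principle holds for a general `W`.  (A NEW range, e.g. `p = 3`, only has to
deliver `s59lq_StmtPkg C`.) -/
theorem s59lq_stmtMP_of_pkg (C : ℕ → ℕ → ℕ → Prop) (hC2 : ∀ p q M₁, C p q M₁ → p ≠ 2)
    (hPkg : s59lq_StmtPkg C) : s59lq_StmtMPOn C := by
  intro p _ W hΔ _ hirr M₁ q hR hM₁ hsq hq hqp hqM₁ hunr hres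
  exact s59lq_glue_on C stmtLift stmtRepN hPkg W hΔ p (hC2 p q M₁ hR) hirr M₁ q hM₁ hR
    hsq hq hqp hqM₁ hunr hres

/-- **LEAF MP, range A** (unconditional): Mazur's principle for a general `W` for `5 ≤ p`,
`q` odd, `5 ≤ q ∨ (5 - q) ∣ M₁` (levels divisible by `p` allowed). -/
theorem s59lq_stmtMP_A : s59lq_StmtMPOn s59lq_RangeA :=
  s59lq_stmtMP_of_pkg s59lq_RangeA (fun p q M₁ h => by have := h.1; omega) s59lq_pkgE

/-- **LEAF RAISE** (unconditional): raising the level is free. -/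
theorem s59lq_stmtRaise : s59lq_StmtRaise := by
  intro W p M C hC hMC h
  obtain ⟨f, 𝔪, hf, hm, hpm, hcong⟩ := h
  obtain ⟨g, hg, hq⟩ := Fermat.Agent.S58.stab_exists_prime hC hMC f hf
  refine ⟨g, 𝔪, hg, hm, hpm, fun ℓ hℓ hgood hℓC hℓp => ?_⟩
  obtain ⟨a, ha, ham⟩ := hcong ℓ hℓ hgood (fun hd => hℓC (hd.trans hMC)) hℓp
  exact ⟨a, by rw [ha, hq ℓ hℓ hℓC], ham⟩

/-- **M2, the frozen shape of S38** in the range covered by Mazur's principle as landed:
`5 ≤ p`, `q` odd, `q ≢ 1 mod p`, `5 ≤ q ∨ (5 - q) ∣ M / q`. -/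
theorem s59lq_main (p : ℕ) [Fact p.Prime] (hp5 : 5 ≤ p) (W : WeierstrassCurve ℤ) (hΔ : W.Δ ≠ 0)
    (hW : W.IsSemistableModel)
    (hcard₁ : Nat.card (Submodule.torsionBy ℤ
      ((W.map (Int.castRingHom ℚ))⁄(AlgebraicClosure ℚ)).Point p) = p ^ 2)
    (hker : GaloisFactorsThroughFiniteLevel
      (WeierstrassCurve.Affine.Point.galoisRepModuleEnd (K := AlgebraicClosure ℚ) ℚ
        (W.map (Int.castRingHom ℚ)) p))
    (hirr : W.ModRepIsIrreducible p) (M q : ℕ) (hq : q.Prime) (hqp : q ≠ p)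
    (hqM : q ∣ M) (hM : Squarefree M) (hq2 : q ≠ 2) (hE : 5 ≤ q ∨ (5 - q) ∣ M / q)
    (hq1 : ¬ p ∣ q - 1)
    (hunr : ((W.map (Int.castRingHom ℚ)).residualGaloisRepOf p hcard₁ hker).IsUnramifiedAt q)
    (hres : W.IsResiduallyModularOfLevel p M) :
    W.IsResiduallyModularOfLevel p (M / q) := by
  obtain ⟨M₁, rfl⟩ : ∃ M₁, M = M₁ * q := ⟨M / q, (Nat.div_mul_cancel hqM).symm⟩
  rw [Nat.mul_div_cancel M₁ hq.pos] at hE ⊢
  have hM₁ : 0 < M₁ := Nat.pos_of_ne_zero (by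
    rintro rfl
    rw [zero_mul] at hM
    exact not_squarefree_zero hM)
  have hqM₁ : ¬ q ∣ M₁ := by
    rintro ⟨k, rfl⟩
    have h := hM q ⟨k, by ring⟩
    exact hq.one_lt.ne' (Nat.isUnit_iff.1 h)
  have hunrW := s59lq_unram_of_residual p W hcard₁ hker q hunr
  rcases s59lq_stmtMP_A p W hΔ hW hirr M₁ q ⟨hp5, hq2, hE⟩ hM₁ hM hq hqp hqM₁ hunrW hres
    with h | h
  · exact h
  · exact absurd h.2.2.1 hq1

end glue

end Fermat.Agent.S59.LowQ

end
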