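/-
S59, wall M2 (LOWER-Q, Mazur's principle for a general `W`; deputy helper3), piece **ATQ-AT + PKG-AT**.

Mazur's principle POINTWISE, for EVERY odd prime `p` and every `q ≠ p` (`q = 2` included): on a
range `R p q M₁` of triples on which the three geometric inputs of helper21's
`RT/K8/GeoP3.lean` hold,

* `rtk8p3_DivAt M₁ p`           (MP-DIV: the `p`-power torsion of `J₀(M₁)(ℚ̄)` is `p`-divisible),
* `rtk8p3_RedAt M₁ q p hq hqM`  (MP-RED),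
* `rtk8p3_FrobAt M₁ q p hq hqM` (MP-FROB),

the package `AtQCore M₁ q p (PDiv (M₁ q) p)` exists, hence Mazur's principle for `W`:

* `s59lq_atq_triv_at`    : fork of `RIB.MP.ribmp_atq_triv` with MP-DIV at `(M₁, p)` only;
* `s59lq_atq_at`         : fork of `RIB.MP.stmtAtQE_of` (the `J`-form at ONE triple);
* `s59lq_stmtPkg_of_inOn : rtk8p3_StmtInOn R → s59lq_StmtPkg R`;
* `s59lq_stmtMP_of_inOn  : (∀ p q M₁, R p q M₁ → p ≠ 2) → rtk8p3_StmtInOn R → s59lq_StmtMPOn R`.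

So a new range of Mazur's principle (p = 3; q = 2) only has to deliver `rtk8p3_StmtInOn R`.
-/
import Fermat.Agent.RIB.MP.AtQE
import Fermat.Agent.RIB.MP.PkgQ
import Fermat.Agent.RT.K8.GeoP3
import Fermat.Agent.S59.LowQ.Glue

set_option autoImplicit false
set_option linter.unusedSectionVars false
set_option linter.unusedVariables false
set_option linter.style.haveILetI false
set_option linter.style.longLine false

noncomputable section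

namespace Fermat.Agent.S59.LowQ

open ModularCurve AlgebraicCurve Fermat.Agent.ES Fermat.Agent.ES.G2 Fermat.Agent.STB
open Fermat.Agent.RIB.MP Fermat.Agent.RT.K8

section Main

variable {M₁ q : ℕ} [NeZero M₁] [NeZero q] [NeZero (M₁ * q)]

/-- **the core of MP-ATQ at one pair `(M₁, p)`** (fork of `RIB.MP.ribmp_atq_triv`: MP-DIV is a
hypothesis at `(M₁, p)`, no `5 ≤ p`). -/
theorem s59lq_atq_triv_at (hOld : StmtOldLevel)
    (hq : q.Prime) (hqM : ¬ q ∣ M₁) {p : ℕ} (hp : p.Prime)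
    (hDiv : rtk8p3_DivAt M₁ p)
    (g : modularFunctionFieldBar (M₁ * q) ≃+* modularFunctionFieldBar (M₁ * q))
    (hgc : ∀ c : Qb, g (algebraMap Qb (modularFunctionFieldBar (M₁ * q)) c) =
      algebraMap Qb (modularFunctionFieldBar (M₁ * q)) c)
    (A : ValuationSubring Qb)
    (hT : ∀ ℓ : Nat.Primes, ¬ (ℓ : ℕ) ∣ M₁ * q * p →
      ∀ z : JZero (M₁ * q) × JZero M₁, z ∈ ribmpRed g A p →
        (heckeOperatorBar (M₁ * q) ℓ z.1, heckeOperatorBar M₁ ℓ z.2) ∈ ribmpRed g A p)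
    (x : PDiv (M₁ * q) p) (hpx : p • x = 0)
    (ℓ₁ : Nat.Primes) (n₁ : ℤ) (hℓ₁ : ¬ (ℓ₁ : ℕ) ∣ M₁ * q * p)
    (hn₁ : heckeOperatorBar (M₁ * q) ℓ₁ (x : JZero (M₁ * q)) = n₁ • (x : JZero (M₁ * q)))
    (hd : ¬ (p : ℤ) ∣ n₁ - ((ℓ₁ : ℕ) + 1))
    (t₀ : HeckeAlg) (ht₀ : t₀ ∈ MvPolynomial.supported ℤ (goodPrimes (M₁ * q) p))
    (hK : Fermat.Agent.R38.KillsLevel M₁ t₀)
    (n₀ : ℤ) (hn₀ : (letI := pDivModule (M₁ * q) p; t₀ • x) = n₀ • x) (hpn₀ : ¬ (p : ℤ) ∣ n₀)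
    (y : JZero M₁) (hy : p • y = 0)
    (hR : (eisKill ℓ₁ (x : JZero (M₁ * q)), y) ∈ ribmpRed g A p) :
    eisKill ℓ₁ (x : JZero (M₁ * q)) ∈ ribmpTriv g A p := by
  set X : JZero (M₁ * q) := (x : JZero (M₁ * q)) with hX
  set d : ℤ := n₁ - (((ℓ₁ : ℕ) : ℤ) + 1) with hdd
  have hd' : ¬ (p : ℤ) ∣ d := hd
  have hEX : eisKill ℓ₁ X = d • X := ribmp_atq_eisKill_eigen ℓ₁ X n₁ hn₁
  have hpX : p • X = 0 := (pDiv_smul_eq_zero_iff p x).1 hpx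
  have hyt : IsPPowerTorsion p y := ⟨1, by rw [pow_one]; exact hy⟩
  have hEy : eisKill ℓ₁ y ∈ pDivTors p (JZero M₁) :=
    hDiv (eisKill ℓ₁ y) (ribmp_atq_eisKill_tors ℓ₁ hyt)
  -- the pair `(E E X, E y)`
  have hR2 := ribmp_atq_red_eisKill g A p ℓ₁ (hT ℓ₁ hℓ₁) hR
  have hEEX : eisKill ℓ₁ (eisKill ℓ₁ X) = (d * d) • X := by
    rw [hEX, ribmp_atq_eisKill_zsmul, hEX, mul_smul]
  -- as elements of the `p`-divisible torsion
  set x₂ : PDiv (M₁ * q) p := (d * d) • x with hx₂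
  set Y : PDiv M₁ p := ⟨eisKill ℓ₁ y, hEy⟩ with hY
  have hx₂c : ((x₂ : PDiv (M₁ * q) p) : JZero (M₁ * q)) = eisKill ℓ₁ (eisKill ℓ₁ X) := by
    rw [hEEX, hx₂, AddSubgroup.coe_zsmul]
  have hz₂ : (((x₂ : PDiv (M₁ * q) p) : JZero (M₁ * q)), ((Y : PDiv M₁ p) : JZero M₁)) ∈
      ribmpRed g A p := by
    show (((x₂ : PDiv (M₁ * q) p) : JZero (M₁ * q)), eisKill ℓ₁ y) ∈ ribmpRed g A p
    rw [hx₂c]
    exact hR2
  have hpoly := ribmp_atq_red_poly hp g A p hT t₀ ht₀ x₂ Y hz₂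
  -- `t₀ Y = 0`
  have ht₀M : t₀ ∈ MvPolynomial.supported ℤ (goodPrimes M₁ p) :=
    MvPolynomial.supported_mono (fun ℓ hℓ => stb_good_of_good hℓ) ht₀
  have hY0 : (letI := pDivModule M₁ p; t₀ • Y) = 0 := hOld M₁ p hp t₀ ht₀M hK Y
  -- `t₀ x₂ = (d d n₀) x`
  have hx0 : (letI := pDivModule (M₁ * q) p; t₀ • x₂) = (d * d * n₀) • x := by
    rw [stb_pDiv_smul_def (M₁ * q) hp, hx₂, map_zsmul, ← stb_pDiv_smul_def (M₁ * q) hp, hn₀,
      ← mul_smul]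
  rw [hY0, hx0] at hpoly
  have hpoly' : ((d * d * n₀) • X, (0 : JZero M₁)) ∈ ribmpRed g A p := by
    have e1 : (((d * d * n₀) • x : PDiv (M₁ * q) p) : JZero (M₁ * q)) = (d * d * n₀) • X :=
      AddSubgroup.coe_zsmul _ _ _
    have e2 : (((0 : PDiv M₁ p)) : JZero M₁) = 0 := rfl
    rw [← e1, ← e2]
    exact hpoly
  have htriv := ribmp_atq_triv_of_red_zero g hgc A hp.ne_zero hpoly'
  -- descend to `d X`
  rw [hEX]
  have hpdX : p • (d • X) = 0 := by rw [smul_comm, hpX, smul_zero]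
  have hc : ¬ (p : ℤ) ∣ d * n₀ := by
    intro h
    rcases (Nat.prime_iff_prime_int.1 hp).dvd_or_dvd h with h1 | h1
    · exact hd' h1
    · exact hpn₀ h1
  refine ribmp_atq_mem_of_smul_mem hp hc _ hpdX ?_
  have e3 : (d * n₀) • (d • X) = (d * d * n₀) • X := by
    rw [← mul_smul]
    congr 1
    ring
  rw [e3]
  exact htriv

/-- **MP-ATQ at ONE triple `(M₁, q, p)`** (fork of `RIB.MP.stmtAtQE_of`): the `J`-form of Mazur's
principle from the three pointwise inputs; `p` any prime `≠ q`, `q = 2` allowed. -/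
theorem s59lq_atq_at (hq : q.Prime) (hqM : ¬ q ∣ M₁) {p : ℕ} (hp : p.Prime) (hpq : p ≠ q)
    (hDiv : rtk8p3_DivAt M₁ p) (hRed : rtk8p3_RedAt M₁ q p hq hqM)
    (hFrob : rtk8p3_FrobAt M₁ q p hq hqM)
    (A : ValuationSubring Qb) (hA : A.LiesOverPrime q)
    (σ : Qb ≃ₐ[ℚ] Qb) (hσ : A.IsFrobeniusAt σ q)
    (x : PDiv (M₁ * q) p) (hpx : p • x = 0) (hI : InertiaFixed A (x : JZero (M₁ * q)))
    (ℓ₁ : Nat.Primes) (n₁ : ℤ) (hℓ₁ : ¬ (ℓ₁ : ℕ) ∣ M₁ * q * p)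
    (hn₁ : heckeOperatorBar (M₁ * q) ℓ₁ (x : JZero (M₁ * q)) = n₁ • (x : JZero (M₁ * q)))
    (hd : ¬ (p : ℤ) ∣ n₁ - ((ℓ₁ : ℕ) + 1))
    (t₀ : HeckeAlg) (ht₀ : t₀ ∈ MvPolynomial.supported ℤ (goodPrimes (M₁ * q) p))
    (hK : Fermat.Agent.R38.KillsLevel M₁ t₀)
    (n₀ : ℤ) (hn₀ : (letI := pDivModule (M₁ * q) p; t₀ • x) = n₀ • x)
    (hpn₀ : ¬ (p : ℤ) ∣ n₀) :
    σ • (Fermat.Agent.UNIP.atkinLehnerBar hq hqM • (x : JZero (M₁ * q))) +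
      q • (x : JZero (M₁ * q)) = 0 := by
  have hOld := stmtOldLevel
  have hHK := stmtRedHecke
  set X : JZero (M₁ * q) := (x : JZero (M₁ * q)) with hX
  have hpX : p • X = 0 := (pDiv_smul_eq_zero_iff p x).1 hpx
  have hpX1 : p ^ 1 • X = 0 := by rw [pow_one]; exact hpX
  obtain ⟨⟨yI, hyI, hRI⟩, ⟨y0, hy0, hR0⟩⟩ := hRed A hA 1 X hpX1 hI ℓ₁ hℓ₁
  rw [pow_one] at hyI hRI hy0 hR0
  -- triviality at `v_∞`
  have hTI : eisKill ℓ₁ X ∈ ribmpTriv (M₁ := M₁) (q := q) (RingEquiv.refl _) A p := by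
    refine s59lq_atq_triv_at hOld hq hqM hp hDiv (RingEquiv.refl _) (fun c => rfl) A
      (fun ℓ hℓ z hz => ?_) x hpx ℓ₁ n₁ hℓ₁ hn₁ hd t₀ ht₀ hK n₀ hn₀ hpn₀ yI hyI
      ((ribmp_atq_redInf_iff A p _ _).1 hRI)
    exact (ribmp_atq_redInf_iff A p _ _).1
      ((hHK M₁ q hq hqM p hp hpq A hA z.1 z.2 ℓ hℓ).1 ((ribmp_atq_redInf_iff A p _ _).2 hz))
  -- triviality at `v_0`
  have h0 : eisKill ℓ₁ X ∈ ribmpTriv (M₁ := M₁) (q := q)
      (Fermat.Agent.UNIP.atkinLehnerBar hq hqM).toRingEquiv A p := by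
    refine s59lq_atq_triv_at hOld hq hqM hp hDiv
      (Fermat.Agent.UNIP.atkinLehnerBar hq hqM).toRingEquiv
      (fun c => (Fermat.Agent.UNIP.atkinLehnerBar hq hqM).commutes c) A
      (fun ℓ hℓ z hz => ?_) x hpx ℓ₁ n₁ hℓ₁ hn₁ hd t₀ ht₀ hK n₀ hn₀ hpn₀ y0 hy0
      ((ribmp_atq_redZero_iff hq hqM A p _ _).1 hR0)
    exact (ribmp_atq_redZero_iff hq hqM A p _ _).1
      ((hHK M₁ q hq hqM p hp hpq A hA z.1 z.2 ℓ hℓ).2
        ((ribmp_atq_redZero_iff hq hqM A p _ _).2 hz))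
  have htoric : IsToric hq hqM A p (eisKill ℓ₁ X) :=
    ⟨(ribmp_atq_trivInf_iff A p _).2 hTI, (ribmp_atq_trivZero_iff hq hqM A p _).2 h0⟩
  have htoric1 : IsToric hq hqM A (p ^ 1) (eisKill ℓ₁ X) := by rw [pow_one]; exact htoric
  have hF := hFrob A hA σ hσ 1 X hpX1 hI ℓ₁ hℓ₁ htoric1
  -- divide by `d`
  have hEX : eisKill ℓ₁ X = (n₁ - (((ℓ₁ : ℕ) : ℤ) + 1)) • X :=
    ribmp_atq_eisKill_eigen ℓ₁ X n₁ hn₁
  rw [hEX] at hF
  set d : ℤ := n₁ - (((ℓ₁ : ℕ) : ℤ) + 1) with hdd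
  set Z : JZero (M₁ * q) := σ • (Fermat.Agent.UNIP.atkinLehnerBar hq hqM • X) + q • X with hZ
  have hdZ : d • Z = 0 := by
    have hcomm : d • (q • X) = q • (d • X) := by
      rw [← natCast_zsmul X q, ← natCast_zsmul (d • X) q, smul_comm]
    rw [hZ, zsmul_add, smul_comm d σ, smul_comm d (Fermat.Agent.UNIP.atkinLehnerBar hq hqM) X,
      hcomm]
    exact hF
  have hpZ : p • Z = 0 := by
    have h1 : p • (σ • (Fermat.Agent.UNIP.atkinLehnerBar hq hqM • X)) = 0 := by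
      rw [smul_comm p σ, smul_comm p (Fermat.Agent.UNIP.atkinLehnerBar hq hqM) X, hpX,
        smul_zero]
      exact smul_zero (A := JZero (M₁ * q)) σ
    have h2 : p • (q • X) = 0 := by
      rw [smul_comm p q X, hpX, smul_zero]
    rw [hZ, nsmul_add, h1, h2, add_zero]
  exact ribmp_atq_eq_zero_of_smul hp hd hpZ hdZ

end Main

/-- **PKG-AT**: on a range on which the three geometric inputs hold, the package of the glue
exists. -/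
theorem s59lq_stmtPkg_of_inOn {R : ℕ → ℕ → ℕ → Prop} (hIn : rtk8p3_StmtInOn R) :
    s59lq_StmtPkg R := by
  intro M₁ q p _ hR hp _ hq hqp hqM₁ hsq
  haveI : NeZero q := ⟨hq.ne_zero⟩
  haveI : NeZero (M₁ * q) := ⟨Nat.mul_ne_zero (NeZero.ne M₁) hq.ne_zero⟩
  haveI : Fact p.Prime := ⟨hp⟩
  obtain ⟨hDiv, hRed, hFrob⟩ := hIn p q M₁ hq hqM₁ hp hqp.symm hR
  refine ⟨PDiv (M₁ * q) p, inferInstance, pDivModule (M₁ * q) p, pDivGalois (M₁ * q) p, ?_⟩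
  letI := pDivModule (M₁ * q) p
  letI := pDivGalois (M₁ * q) p
  refine ⟨ribmp_pkg_es (M₁ * q) p, ribmp_pkg_w hq hqM₁ p, ?_, ?_, ?_⟩
  · intro x
    exact Subtype.ext (ribmp_pkg_w_invol hq hqM₁ (x : JZero (M₁ * q)))
  · intro σ x
    exact Subtype.ext (ribmp_pkg_w_galois hq hqM₁ σ (x : JZero (M₁ * q)))
  · intro A hA σ hσ x hx hin t₀ ht₀ hK n₀ hn₀ hpn₀ ℓ₁ hℓ₁ n₁ hn₁ hpn₁
    have hG : ∀ ℓ ∈ goodPrimes (M₁ * q) p, ¬ (ℓ : ℕ) ∣ M₁ := fun ℓ hℓ h =>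
      hℓ (Dvd.dvd.mul_right (Dvd.dvd.mul_right h q) p)
    have hKL : Fermat.Agent.R38.KillsLevel M₁ t₀ :=
      Fermat.Agent.R38.killsLevel_of_forms (goodPrimes (M₁ * q) p) hG ht₀ hK
    have hin' : InertiaFixed A (x : JZero (M₁ * q)) := fun τ hτ =>
      congrArg Subtype.val (hin τ hτ)
    have hn₁' : heckeOperatorBar (M₁ * q) ℓ₁ (x : JZero (M₁ * q)) =
        n₁ • (x : JZero (M₁ * q)) := by
      rw [← ribmp_pkg_heckeGen_coe (M₁ * q) p ℓ₁ hℓ₁ x, hn₁]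
      rfl
    have key := s59lq_atq_at hq hqM₁ hp hqp.symm hDiv hRed hFrob A hA σ hσ x hx hin' ℓ₁ n₁ hℓ₁
      hn₁' hpn₁ t₀ ht₀ hKL n₀ hn₀ hpn₀
    apply Subtype.ext
    exact key

/-- **LEAF MP from the geometric inputs**: Mazur's principle for a general `W` on every range
(with `p ≠ 2`) on which MP-DIV, MP-RED and MP-FROB hold. -/
theorem s59lq_stmtMP_of_inOn {R : ℕ → ℕ → ℕ → Prop} (hR2 : ∀ p q M₁, R p q M₁ → p ≠ 2)
    (hIn : rtk8p3_StmtInOn R) : s59lq_StmtMPOn R :=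
  s59lq_stmtMP_of_pkg R hR2 (s59lq_stmtPkg_of_inOn hIn)

end Fermat.Agent.S59.LowQ

end
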