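/-
S59 wall M2 (LOWER-Q, Mazur's principle for a general curve), leaf MP-C at the levels divisible
by `3` (helper2): **Mazur's principle at `q = 2`**, `5 ≤ p`, `3 ∣ M₁`.

`s59lq_stmtMP_C : s59lq_StmtMPOn (fun p q M₁ => 5 ≤ p ∧ q = 2 ∧ 3 ∣ M₁)`, from helper3's glue
`s59lq_stmtMP_of_inOn` (`S59/LowQ/PkgAt.lean`) and the three inputs `ribmp_fac2_stmtInOn`
(`RIB/MP/FacTwo.lean`: (F) at `q = 2` by descent from the rigid level `9 · M₁ · 2`).
Together with the landed range `A` (`5 ≤ p`, `q ≠ 2`, `5 ≤ q ∨ (5 - q) ∣ M₁`) this gives Mazur's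
principle for `5 ≤ p` at every `q` whose reduction package exists
(`5 ≤ q ∨ (5 - q) ∣ M₁`, `q = 2` included): `s59lq_stmtMP_AC`.
-/
import Fermat.Agent.S59.LowQ.PkgAt
import Fermat.Agent.RIB.MP.FacTwo

set_option autoImplicit false
set_option linter.unusedVariables false
set_option linter.style.longLine false

noncomputable section

namespace Fermat.Agent.S59.LowQ

open Fermat.Agent.RIB.MP Fermat.Agent.RT.K8

/-- **Mazur's principle for `W` at `q = 2`**, `5 ≤ p`, `3 ∣ M₁`. -/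
theorem s59lq_stmtMP_C : s59lq_StmtMPOn (fun p q M₁ => 5 ≤ p ∧ q = 2 ∧ 3 ∣ M₁) :=
  s59lq_stmtMP_of_inOn (fun p q M₁ h => by have := h.1; omega) ribmp_fac2_stmtInOn

/-- the inputs of Mazur's principle on the range `5 ≤ p`, `5 ≤ q ∨ (5 - q) ∣ M₁` (`q = 2`
included: then `3 ∣ M₁`) -/
theorem s59lq_stmtInOn_AC :
    rtk8p3_StmtInOn (fun p q M₁ => 5 ≤ p ∧ (5 ≤ q ∨ (5 - q) ∣ M₁)) := by
  intro p q M₁ _ _ _ hq hqM hp hpq hR
  obtain ⟨hp5, hE⟩ := hR
  by_cases hq2 : q = 2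
  · refine ribmp_fac2_stmtInOn p q M₁ hq hqM hp hpq ⟨hp5, hq2, ?_⟩
    rcases hE with h | h
    · omega
    · rw [hq2] at h
      exact h
  · exact rtk8p3_stmtInOn_old stmtFac p q M₁ hq hqM hp hpq ⟨hp5, hq2, hE⟩

/-- **Mazur's principle for `W`, `5 ≤ p`, at every `q` with `5 ≤ q ∨ (5 - q) ∣ M₁`** (`q = 2` at
the levels divisible by `3`, `q = 3` at the even levels). -/
theorem s59lq_stmtMP_AC : s59lq_StmtMPOn (fun p q M₁ => 5 ≤ p ∧ (5 ≤ q ∨ (5 - q) ∣ M₁)) :=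
  s59lq_stmtMP_of_inOn (fun p q M₁ h => by have := h.1; omega) s59lq_stmtInOn_AC

end Fermat.Agent.S59.LowQ

end
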