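/-
S59, wall M2 (LOWER-Q, Mazur's principle for a general `W`; deputy helper3), leaf **MP-D**:
Mazur's principle for `W` on the range

    p ≠ 2 (so p = 3 included),  q ≠ 2,  2 ∣ M₁     (M₁ = M / q).

Inputs (all landed, unconditional):
* MP-DIV  : `RIB.MP.ribmp_tdo_torsDiv`       (helper15, `RIB/MP/TorsDivOdd.lean`);
* MP-RED  : `RIB.MP.ribmpat_red_pow_even`    (helper21, `RIB/MP/RedFrobAt.lean`);
* MP-FROB : `RIB.MP.ribmpat_frob_pow_even`   (helper21, `RIB/MP/RedFrobAt.lean`);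
* generic glue + PKG-AT: `s59lq_stmtMP_of_inOn` (`S59/LowQ/PkgAt.lean`).

* `s59lq_stmtInOn_D : rtk8p3_StmtInOn (fun p q M₁ => p ≠ 2 ∧ q ≠ 2 ∧ 2 ∣ M₁)`;
* `s59lq_stmtMP_D   : s59lq_StmtMPOn  (fun p q M₁ => p ≠ 2 ∧ q ≠ 2 ∧ 2 ∣ M₁)`;
* `s59lq_stmtMP_AD  : s59lq_StmtMPOn` on the union of the landed range A and D.
-/
import Fermat.Agent.RIB.MP.RedFrobAt
import Fermat.Agent.RIB.MP.TorsDivOdd
import Fermat.Agent.RT.K8.GeoP3
import Fermat.Agent.S59.LowQ.PkgAt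

set_option autoImplicit false
set_option linter.unusedSectionVars false
set_option linter.unusedVariables false
set_option linter.style.haveILetI false
set_option linter.style.longLine false

noncomputable section

namespace Fermat.Agent.S59.LowQ

open ModularCurve AlgebraicCurve Fermat.Agent.ES Fermat.Agent.ES.G2 Fermat.Agent.STB
open Fermat.Agent.RIB.MP Fermat.Agent.RT.K8

/-- **The inputs of Mazur's principle on the range D**: `p` odd (`p = 3` included), `q` odd,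
`M₁` even. -/
theorem s59lq_stmtInOn_D :
    rtk8p3_StmtInOn (fun p q M₁ => p ≠ 2 ∧ q ≠ 2 ∧ 2 ∣ M₁) := by
  intro p q M₁ _ _ _ hq hqM hp hpq hR
  obtain ⟨hp2, hq2, h2⟩ := hR
  refine ⟨fun y hy => ribmp_tdo_torsDiv M₁ p hp hp2 h2 y hy, ?_, ?_⟩
  · intro A hA n x hx hI ℓ hℓ
    exact ribmpat_red_pow_even M₁ q hq hqM hq2 h2 p hp hp2 hpq n A hA x hx hI ℓ hℓ
  · intro A hA σ hσ n x hx hI ℓ hℓ htor
    exact ribmpat_frob_pow_even M₁ q hq hqM hq2 h2 p hp hp2 hpq n A hA σ hσ x hx hI ℓ hℓ htor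

/-- **LEAF MP-D**: Mazur's principle for a general `W` on the range `p ≠ 2`, `q ≠ 2`,
`2 ∣ M₁`. -/
theorem s59lq_stmtMP_D :
    s59lq_StmtMPOn (fun p q M₁ => p ≠ 2 ∧ q ≠ 2 ∧ 2 ∣ M₁) :=
  s59lq_stmtMP_of_inOn (fun _ _ _ h => h.1) s59lq_stmtInOn_D

/-- **LEAF MP on the union of the ranges A and D** (unconditional): Mazur's principle for a
general `W` for (`5 ≤ p`, `q` odd, `5 ≤ q ∨ (5 - q) ∣ M₁`) or (`p`, `q` odd, `M₁` even). -/
theorem s59lq_stmtMP_AD :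
    s59lq_StmtMPOn (fun p q M₁ => s59lq_RangeA p q M₁ ∨ (p ≠ 2 ∧ q ≠ 2 ∧ 2 ∣ M₁)) :=
  s59lq_stmtMPOn_union s59lq_stmtMP_A s59lq_stmtMP_D

end Fermat.Agent.S59.LowQ

end
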