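/-
S59, wall M2 (LOWER-Q), leaf **OLD-r** (helper29), part 1: a `p`-adic coefficient ring which is
compatible with a given prime of a finite `ℤ`-algebra.

`s59lqo_exists_iota` : `R` a domain of characteristic `0`, finite over `ℤ`, `𝔭` a prime ideal of
`R` with `p ∈ 𝔭`.  Then there are a complete discrete valuation ring `𝒪` of characteristic `0`
with finite residue field, `p ∈ 𝔪_𝒪`, and a ring homomorphism `iota : R → 𝒪` with
`iota 𝔭 ⊆ 𝔪_𝒪`.

Proof: `𝒪` = the big ring of E-BIG (`s59big_exists_padic`: every ring homomorphism from `R` to a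
domain over `𝒪` has its values in `𝒪`).  `A = 𝒪 ⊗ R` is free over `𝒪`; the two residue maps
`𝒪 → k → Ω`, `R → R/𝔭 → Ω` (`Ω` an algebraic closure of `k`) give a prime `Q'` of `A` over
`𝔪_𝒪` and `𝔭`; a minimal prime `Q ≤ Q'` consists of zero divisors, so `𝒪 → A/Q` is injective, and
`R → A/Q` has its values in `𝒪`.
-/
import Mathlib
import Fermat.Agent.S59.Eta.Big

set_option autoImplicit false
set_option linter.unusedVariables false
set_option linter.unusedSectionVars false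
set_option linter.style.haveILetI false
set_option linter.style.longLine false

noncomputable section

namespace Fermat.Agent.S59.LowQ

open IsLocalRing TensorProduct

/-- a ring homomorphism with values in the range of an injective one factors through it -/
theorem s59lqo_factor {R 𝒪 B : Type*} [NonAssocSemiring R] [NonAssocSemiring 𝒪]
    [NonAssocSemiring B] (j : 𝒪 →+* B) (hj : Function.Injective j) (χ : R →+* B)
    (h : ∀ t, χ t ∈ Set.range j) : ∃ iota : R →+* 𝒪, ∀ t, j (iota t) = χ t := by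
  classical
  choose i hi using h
  refine ⟨{ toFun := i, map_one' := ?_, map_mul' := ?_, map_zero' := ?_, map_add' := ?_ }, hi⟩
  · apply hj; rw [hi, map_one, map_one]
  · intro x y; apply hj; rw [hi, map_mul, map_mul, hi, hi]
  · apply hj; rw [hi, map_zero, map_zero]
  · intro x y; apply hj; rw [hi, map_add, map_add, hi, hi]

/-- **OLD-r, coefficient ring.** -/
theorem s59lqo_exists_iota (p : ℕ) [hpF : Fact p.Prime] (R : Type) [CommRing R] [IsDomain R]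
    [CharZero R] [Module.Finite ℤ R] (𝔭 : Ideal R) [h𝔭 : 𝔭.IsPrime] (hp𝔭 : (p : R) ∈ 𝔭) :
    ∃ (𝒪 : Type) (_ : CommRing 𝒪) (_ : IsDomain 𝒪) (_ : IsDiscreteValuationRing 𝒪)
      (_ : IsAdicComplete (maximalIdeal 𝒪) 𝒪) (_ : Finite (ResidueField 𝒪)) (_ : CharZero 𝒪)
      (iota : R →+* 𝒪), (p : 𝒪) ∈ maximalIdeal 𝒪 ∧ ∀ x ∈ 𝔭, iota x ∈ maximalIdeal 𝒪 := by
  classical
  have hp : p.Prime := hpF.out
  obtain ⟨𝒪, i1, i2, i3, i4, i5, i6, φ, hφ, hinj, hp𝒪, hbig⟩ :=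
    Fermat.Agent.S59.s59big_exists_padic p R
  -- the residue fields and a common overfield
  haveI hk : CharP (ResidueField 𝒪) p := by
    rw [CharP.charP_iff_prime_eq_zero hp]
    have h0 : residue 𝒪 (p : 𝒪) = 0 := (residue_eq_zero_iff _).2 hp𝒪
    rwa [map_natCast] at h0
  haveI hΩ : CharP (AlgebraicClosure (ResidueField 𝒪)) p :=
    charP_of_injective_algebraMap
      (algebraMap (ResidueField 𝒪) (AlgebraicClosure (ResidueField 𝒪))).injective p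
  haveI hκ : CharP (R ⧸ 𝔭) p := by
    rw [CharP.charP_iff_prime_eq_zero hp]
    have h0 : Ideal.Quotient.mk 𝔭 (p : R) = 0 := Ideal.Quotient.eq_zero_iff_mem.2 hp𝔭
    rwa [map_natCast] at h0
  letI aΩ : Algebra (ZMod p) (AlgebraicClosure (ResidueField 𝒪)) := ZMod.algebra _ p
  letI aκ : Algebra (ZMod p) (R ⧸ 𝔭) := ZMod.algebra _ p
  haveI : Algebra.IsIntegral ℤ R := inferInstance
  haveI : Algebra.IsIntegral ℤ (R ⧸ 𝔭) := inferInstance
  haveI : Algebra.IsIntegral (ZMod p) (R ⧸ 𝔭) := Algebra.IsIntegral.tower_top (R := ℤ)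
  haveI : Algebra.IsAlgebraic (ZMod p) (R ⧸ 𝔭) := inferInstance
  let g₀ : (R ⧸ 𝔭) →ₐ[ZMod p] AlgebraicClosure (ResidueField 𝒪) := IsAlgClosed.lift
  let f₁ : 𝒪 →+* AlgebraicClosure (ResidueField 𝒪) :=
    (algebraMap (ResidueField 𝒪) (AlgebraicClosure (ResidueField 𝒪))).comp (residue 𝒪)
  let g₁ : R →+* AlgebraicClosure (ResidueField 𝒪) :=
    (g₀ : (R ⧸ 𝔭) →+* AlgebraicClosure (ResidueField 𝒪)).comp (Ideal.Quotient.mk 𝔭)
  let Ψ : 𝒪 ⊗[ℤ] R →ₐ[ℤ] AlgebraicClosure (ResidueField 𝒪) :=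
    Algebra.TensorProduct.productMap f₁.toIntAlgHom g₁.toIntAlgHom
  have hΨr : ∀ x : R, Ψ (1 ⊗ₜ[ℤ] x) = g₁ x := fun x => by
    show Algebra.TensorProduct.productMap f₁.toIntAlgHom g₁.toIntAlgHom (1 ⊗ₜ[ℤ] x) = g₁ x
    rw [Algebra.TensorProduct.productMap_apply_tmul, map_one, one_mul]
    rfl
  -- a minimal prime below the kernel
  haveI hQ' : (RingHom.ker (Ψ : 𝒪 ⊗[ℤ] R →+* AlgebraicClosure (ResidueField 𝒪))).IsPrime :=
    RingHom.ker_isPrime _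
  obtain ⟨Q, hQmin, hQle⟩ := Ideal.exists_minimalPrimes_le
    (I := (⊥ : Ideal (𝒪 ⊗[ℤ] R)))
    (J := RingHom.ker (Ψ : 𝒪 ⊗[ℤ] R →+* AlgebraicClosure (ResidueField 𝒪))) bot_le
  haveI hQp : Q.IsPrime := hQmin.1.1
  have hdisj := Ideal.disjoint_nonZeroDivisors_of_mem_minimalPrimes (R := 𝒪 ⊗[ℤ] R) hQmin
  -- `A` is torsion-free over `𝒪`
  haveI : Module.Free ℤ R := Module.free_of_finite_type_torsion_free'
  haveI : Module.Free 𝒪 (𝒪 ⊗[ℤ] R) := inferInstance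
  have hnzd : ∀ x : 𝒪, x ≠ 0 → algebraMap 𝒪 (𝒪 ⊗[ℤ] R) x ∈ nonZeroDivisors (𝒪 ⊗[ℤ] R) := by
    intro x hx
    rw [mem_nonZeroDivisors_iff_right]
    intro z hz
    rw [mul_comm, ← Algebra.smul_def] at hz
    exact (smul_eq_zero.1 hz).resolve_left hx
  -- the domain `B = A / Q`
  have hj : Function.Injective (algebraMap 𝒪 ((𝒪 ⊗[ℤ] R) ⧸ Q)) := by
    rw [injective_iff_map_eq_zero]
    intro x hx
    by_contra hx0
    have hmem : algebraMap 𝒪 (𝒪 ⊗[ℤ] R) x ∈ Q := by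
      rw [← Ideal.Quotient.eq_zero_iff_mem]
      exact hx
    exact Set.disjoint_left.1 hdisj hmem (hnzd x hx0)
  let χ : R →+* (𝒪 ⊗[ℤ] R) ⧸ Q :=
    (Ideal.Quotient.mk Q).comp
      ((Algebra.TensorProduct.includeRight : R →ₐ[ℤ] 𝒪 ⊗[ℤ] R) : R →+* 𝒪 ⊗[ℤ] R)
  have hrange : ∀ t, χ t ∈ Set.range (algebraMap 𝒪 ((𝒪 ⊗[ℤ] R) ⧸ Q)) :=
    fun t => hbig ((𝒪 ⊗[ℤ] R) ⧸ Q) χ t
  obtain ⟨iota, hiota⟩ := s59lqo_factor (algebraMap 𝒪 ((𝒪 ⊗[ℤ] R) ⧸ Q)) hj χ hrange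
  refine ⟨𝒪, i1, i2, i3, i4, i5, i6, iota, hp𝒪, fun x hx => ?_⟩
  rw [mem_maximalIdeal, mem_nonunits_iff]
  intro hu
  have hu' : IsUnit (χ x) := by
    rw [← hiota x]
    exact hu.map _
  let Ψbar : (𝒪 ⊗[ℤ] R) ⧸ Q →+* AlgebraicClosure (ResidueField 𝒪) :=
    Ideal.Quotient.lift Q (Ψ : 𝒪 ⊗[ℤ] R →+* AlgebraicClosure (ResidueField 𝒪))
      (fun a ha => hQle ha)
  have h0 : Ψbar (χ x) = 0 := by
    have h1 : Ψbar (χ x) = Ψ (1 ⊗ₜ[ℤ] x) := by
      show Ideal.Quotient.lift Q (Ψ : 𝒪 ⊗[ℤ] R →+* AlgebraicClosure (ResidueField 𝒪)) _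
        (Ideal.Quotient.mk Q (1 ⊗ₜ[ℤ] x)) = _
      exact Ideal.Quotient.lift_mk Q _ _
    rw [h1, hΨr]
    have h2 : Ideal.Quotient.mk 𝔭 x = 0 := Ideal.Quotient.eq_zero_iff_mem.2 hx
    show g₀ (Ideal.Quotient.mk 𝔭 x) = 0
    rw [h2, map_zero]
  exact (hu'.map Ψbar).ne_zero h0

end Fermat.Agent.S59.LowQ

end
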