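/-
S59, wall M2 (LOWER-Q for a general semistable `W`; deputy helper3), leaf **OLD-r** (helper29).

`s59lqo_main` : `W` residually modular of level `M₁ · r`, `r ∤ M₁ p` a prime of good reduction of
`W` with `a_r(W)² ≢ (r + 1)² mod p`  ⟹  `W` residually modular of level `M₁` (SAME `W`).

Proof: the eigenform `f` of level `M₁ r` has the eigenvalues (outside `M₁ r`) of a newform `g` of
a level `M ∣ M₁ r` (`S58.nf_exists_newform`).
* `r ∤ M`: then `M ∣ M₁`, `g` is raised to level `M₁` (`S58.stab_exists_prime`) and UPG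
  (`s59lq_upg_resid`, `S := {r}`) gives the congruence at `ℓ = r` too.
* `r ∥ M`: S35 for `g` over a `p`-adic ring `𝒪` compatible with `𝔪` (`s59lqo_exists_iota`) gives
  `ρ` with `charpoly ρ(Frob_r) = X² ∓ (r + 1) X + r`; weak Chebotarev + Lucas
  (`s59lqo_trace_of_frob`) give `tr ρ̄(Frob_r) = a_r(W)` in the residue field.  So
  `a_r(W) ≡ ±(r + 1) mod p`, excluded.
-/
import Fermat.Agent.S35.FinalTop
import Fermat.Agent.STB.MGInputsFinal
import Fermat.Agent.S22.Final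
import Fermat.Agent.S58.Nf
import Fermat.Agent.S58.Stab
import Fermat.Agent.S58.GlueChi
import Fermat.Agent.EC.Bn2
import Fermat.Agent.S59.LowQ.Upg
import Fermat.Agent.S59.LowQ.OldRIota

set_option autoImplicit false
set_option linter.unusedSectionVars false
set_option linter.unusedVariables false
set_option linter.style.longLine false
set_option linter.style.haveILetI false
set_option linter.unusedSimpArgs false

noncomputable section

namespace Fermat.Agent.S59.LowQ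

open WeierstrassCurve WeierstrassCurve.Affine WeierstrassCurve.Affine.Point
open Fermat.Agent.EC.DetChar Polynomial IsLocalRing CongruenceSubgroup ModularFormClass

/-- **Chebotarev transfer**: a residual representation over a field of characteristic `p` whose
characteristic polynomials at the Frobenius elements of almost all good primes are those of
`W` has the trace `a_q(W)` at a Frobenius of EVERY good prime `q ≠ p`. -/
theorem s59lqo_trace_of_frob (W : WeierstrassCurve ℤ) (hΔ : W.Δ ≠ 0) (p : ℕ) [hpF : Fact p.Prime]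
    (hirr : W.ModRepIsIrreducible p) {k : Type} [Field k] [CharP k p]
    (ρ : ResidualGaloisRep k) (S : Finset ℕ)
    (hρ : ∀ ℓ : ℕ, ℓ.Prime → ℓ ∉ S → W.IsGoodPrimeFor ℓ → ℓ ≠ p →
      ∀ A : ValuationSubring (AlgebraicClosure ℚ), A.LiesOverPrime ℓ →
        ∀ τ : AlgebraicClosure ℚ ≃ₐ[ℚ] AlgebraicClosure ℚ, A.IsFrobeniusAt τ ℓ →
          LinearMap.charpoly (ρ.ρ τ)
            = X ^ 2 - C (((W.apOfModel ℓ : ℤ) : k)) * X + C (((ℓ : ℕ) : k)))
    {q : ℕ} (hq : q.Prime) (hqg : W.IsGoodPrimeFor q) (hqp : q ≠ p)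
    (A : ValuationSubring (AlgebraicClosure ℚ)) (hA : A.LiesOverPrime q)
    (σ : AlgebraicClosure ℚ ≃ₐ[ℚ] AlgebraicClosure ℚ) (hσ : A.IsFrobeniusAt σ q) :
    LinearMap.trace k ρ.V (ρ.ρ σ) = ((W.apOfModel q : ℤ) : k) := by
  classical
  have hp : p.Prime := hpF.out
  have hcard := Fermat.Agent.RED.card_torsQbar W hΔ hp.ne_zero
  haveI hfinE : Finite (TorsQbar (W.map (Int.castRingHom ℚ)) p) := finite_of_card hcard
  haveI : Module.Finite (ZMod p) (TorsQbar (W.map (Int.castRingHom ℚ)) p) :=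
    Module.Finite.of_finite
  have hrk : Module.finrank (ZMod p) (TorsQbar (W.map (Int.castRingHom ℚ)) p) = 2 :=
    finrank_of_card hcard
  haveI : NeZero p := ⟨hp.ne_zero⟩
  obtain ⟨F₁, hF₁fin, -, hF₁, -⟩ := exists_level (E := W.map (Int.castRingHom ℚ)) hfinE p
  obtain ⟨L₁, hL₁fin, hL₁⟩ := ρ.factorsThroughFiniteLevel
  haveI := hL₁fin
  haveI := hF₁fin
  obtain ⟨F, hFfin, hFgal, hL₁F, hF₁F⟩ := Fermat.Agent.EC.cmp_exists_galois_hull L₁ F₁
  haveI := hFfin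
  haveI := hFgal
  -- weak Chebotarev
  obtain ⟨ℓ, A', τ, m, hℓ, hℓS, hA', hτ, hagree⟩ :=
    Fermat.Agent.Cheb.exists_frobenius_pow_eq F (S ∪ Fermat.Agent.RED.excSetAll W p) σ
  rw [Finset.mem_union, not_or] at hℓS
  obtain ⟨hℓS0, hℓexc⟩ := hℓS
  obtain ⟨hℓdp, hℓg⟩ := (Fermat.Agent.RED.not_mem_excSetAll_iff W hΔ hp.ne_zero hℓ).1 hℓexc
  have hℓp : ℓ ≠ p := by
    rintro rfl
    exact hℓdp dvd_rfl
  have hρeq : ρ.ρ σ = ρ.ρ (τ ^ m) := by
    have h1 : ρ.ρ (σ⁻¹ * τ ^ m) = 1 := by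
      apply hL₁
      intro x hx
      rw [AlgEquiv.mul_apply, hagree x (hL₁F hx)]
      exact σ.symm_apply_apply x
    have h2 : τ ^ m = σ * (σ⁻¹ * τ ^ m) := by group
    rw [h2, map_mul, h1, mul_one]
  have hEeq : rhoBar (W.map (Int.castRingHom ℚ)) p (τ ^ m) =
      rhoBar (W.map (Int.castRingHom ℚ)) p σ :=
    hF₁ _ _ fun x hx => hagree x (hF₁F hx)
  have hcpℓ := hρ ℓ hℓ hℓS0 hℓg hℓp A' hA' τ hτ
  have htrE : LinearMap.trace (ZMod p) (TorsQbar (W.map (Int.castRingHom ℚ)) p)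
      (rhoBar (W.map (Int.castRingHom ℚ)) p τ) = (W.apOfModel ℓ : ZMod p) :=
    Fermat.Agent.RED.galoisTrace_frob_of_model_all W hΔ hirr hℓ hℓp hℓg hA' hτ
  have hdetE : LinearMap.det (rhoBar (W.map (Int.castRingHom ℚ)) p τ) = (ℓ : ZMod p) := by
    rw [Fermat.Agent.RED.det_of_model W hΔ hirr τ,
      Fermat.Agent.S42.cycloChar_frob p hp ℓ hℓ hℓp A' hA' τ hτ]
  have hcpE : LinearMap.charpoly (rhoBar (W.map (Int.castRingHom ℚ)) p τ) =
      X ^ 2 - C ((W.apOfModel ℓ : ZMod p)) * X + C ((ℓ : ZMod p)) := by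
    rw [Fermat.Agent.S34.charpoly_eq_of_finrank_two hrk, htrE, hdetE]
  have h1 := Fermat.Agent.S31.trace_pow_eq_lucasS ρ.finrank_eq (ρ.ρ τ) _ _ hcpℓ m
  have h2 := Fermat.Agent.S31.trace_pow_eq_lucasS hrk
    (rhoBar (W.map (Int.castRingHom ℚ)) p τ) _ _ hcpE m
  have hpow1 : ρ.ρ (τ ^ m) = ρ.ρ τ ^ m := map_pow ρ.ρ τ m
  have hpow2 : rhoBar (W.map (Int.castRingHom ℚ)) p (τ ^ m) =
      rhoBar (W.map (Int.castRingHom ℚ)) p τ ^ m := map_pow _ τ m
  rw [← hpow1, ← hρeq] at h1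
  rw [← hpow2, hEeq] at h2
  have htrq : LinearMap.trace (ZMod p) (TorsQbar (W.map (Int.castRingHom ℚ)) p)
      (rhoBar (W.map (Int.castRingHom ℚ)) p σ) = (W.apOfModel q : ZMod p) :=
    Fermat.Agent.RED.galoisTrace_frob_of_model_all W hΔ hirr hq hqp hqg hA hσ
  rw [htrq] at h2
  let ι : ZMod p →+* k := ZMod.castHom (dvd_refl p) k
  have h3 := congrArg ι h2
  simp only [Fermat.Agent.S31.lucasS_map, map_intCast, map_natCast] at h3
  rw [h1, h3]

/-- **OLD-r, the new case is impossible**: a newform `g` of level `M` with `r ∥ M` whose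
eigenvalues are congruent to those of `W` outside `N` (`M ∣ N`), `r ≠ p` a good prime of `W`
with `a_r(W)² ≢ (r + 1)² mod p`. -/
theorem s59lqo_not_new (W : WeierstrassCurve ℤ) (hΔ : W.Δ ≠ 0) (p : ℕ) [hpF : Fact p.Prime]
    (hirr : W.ModRepIsIrreducible p) {N M r : ℕ} (hN0 : N ≠ 0) (hMN : M ∣ N) [NeZero M]
    (hr : r.Prime) (hrp : r ≠ p) (hrg : W.IsGoodPrimeFor r) (hrM : r ∣ M) (hr2 : ¬ r ^ 2 ∣ M)
    (hap : ¬ (p : ℤ) ∣ W.apOfModel r ^ 2 - ((r : ℤ) + 1) ^ 2)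
    (g : CuspForm (Gamma0 M) 2) (hg : g.IsNewform)
    (𝔪 : Ideal (integralClosure ℤ ℂ)) (hm : 𝔪.IsMaximal)
    (hpm : (p : integralClosure ℤ ℂ) ∈ 𝔪)
    (hcong : ∀ ℓ : ℕ, ℓ.Prime → W.IsGoodPrimeFor ℓ → ¬ ℓ ∣ N → ℓ ≠ p →
      ∃ a : integralClosure ℤ ℂ, (a : ℂ) = qCoeff g ℓ ∧
        a - ((W.apOfModel ℓ : ℤ) : integralClosure ℤ ℂ) ∈ 𝔪) : False := by
  classical
  have hp : p.Prime := hpF.out
  set S : Finset ℕ := insert p N.primeFactors with hS
  have hpS : p ∈ S := Finset.mem_insert_self _ _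
  have hMS : ∀ q : ℕ, q.Prime → q ∣ M → q ∈ S := fun q hq hqM =>
    Finset.mem_insert_of_mem (Nat.mem_primeFactors.mpr ⟨hq, hqM.trans hMN, hN0⟩)
  have hnotS : ∀ ℓ : ℕ, ℓ.Prime → ℓ ∉ S → ¬ ℓ ∣ N := fun ℓ hℓ hℓS hℓN =>
    hℓS (Finset.mem_insert_of_mem (Nat.mem_primeFactors.mpr ⟨hℓ, hℓN, hN0⟩))
  obtain ⟨chig, hchig, hrange⟩ := Fermat.Agent.S58.s58g_exists_chig g hg.1 S hMS
    (integralClosure ℤ ℂ).toSubring
    (fun ℓ hℓ hℓM _ => Fermat.Agent.S42.isIntegral_qCoeff_prime g hg.1 hℓ hℓM)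
  -- `chig.range` is finite over `ℤ`
  haveI hfinT : Module.Finite ℤ (CuspForm.heckeAlgebra M 2 (↑S : Set ℕ)) :=
    Fermat.Agent.S22.moduleFinite_heckeAlgebra M 2 _
  haveI hfinR : Module.Finite ℤ chig.range :=
    Module.Finite.of_surjective (chig.rangeRestrict.toIntAlgHom.toLinearMap)
      chig.rangeRestrict_surjective
  -- the prime of `chig.range` below `𝔪`
  let incl : chig.range →+* integralClosure ℤ ℂ :=
    RingHom.codRestrict chig.range.subtype (integralClosure ℤ ℂ) (fun x => hrange x.1 x.2)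
  haveI : 𝔪.IsPrime := hm.isPrime
  haveI h𝔭 : (𝔪.comap incl).IsPrime := Ideal.comap_isPrime incl 𝔪
  have hp𝔭 : ((p : ℕ) : chig.range) ∈ 𝔪.comap incl := by
    rw [Ideal.mem_comap, map_natCast]
    exact hpm
  obtain ⟨𝒪, _, _, _, _, _, _, iota, hp𝒪, hiota⟩ :=
    s59lqo_exists_iota p chig.range (𝔪.comap incl) hp𝔭
  obtain ⟨O'', _, _, _, _, _, _, _, _, hloc, hinj, ρ, ha, hb⟩ :=
    Fermat.Agent.S35.s35_of_stbdInputs Fermat.Agent.STB.stbd_stmtStbdInputs
      hg p S 𝒪 hp𝒪 chig hchig iota hpS hMS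
  -- the residue field
  have hmap : ∀ x ∈ maximalIdeal 𝒪, algebraMap 𝒪 O'' x ∈ maximalIdeal O'' := fun x hx => by
    rw [mem_maximalIdeal, mem_nonunits_iff] at hx ⊢
    exact fun hu => hx (hloc.map_nonunit x hu)
  haveI hchar : CharP (ResidueField O'') p := by
    rw [CharP.charP_iff_prime_eq_zero hp]
    have h0 : residue O'' (algebraMap 𝒪 O'' ((p : ℕ) : 𝒪)) = 0 :=
      (residue_eq_zero_iff _).2 (hmap _ hp𝒪)
    rwa [map_natCast, map_natCast] at h0
  have hφ0 : ∀ x ∈ 𝔪.comap incl, residue O'' (algebraMap 𝒪 O'' (iota x)) = 0 := fun x hx =>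
    (residue_eq_zero_iff _).2 (hmap _ (hiota x hx))
  -- the characteristic polynomials of the residual representation at the good primes
  have hρ : ∀ ℓ : ℕ, ℓ.Prime → ℓ ∉ S → W.IsGoodPrimeFor ℓ → ℓ ≠ p →
      ∀ A : ValuationSubring (AlgebraicClosure ℚ), A.LiesOverPrime ℓ →
        ∀ τ : AlgebraicClosure ℚ ≃ₐ[ℚ] AlgebraicClosure ℚ, A.IsFrobeniusAt τ ℓ →
          LinearMap.charpoly (ρ.residual.ρ τ)
            = X ^ 2 - C (((W.apOfModel ℓ : ℤ) : ResidueField O'')) * X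
              + C (((ℓ : ℕ) : ResidueField O'')) := by
    intro ℓ hℓ hℓS hℓg hℓp A hA τ hτ
    have hℓN : ¬ ℓ ∣ N := hnotS ℓ hℓ hℓS
    have hℓM : ¬ ℓ ∣ M := fun h => hℓN (h.trans hMN)
    have hℓS' : ℓ ∉ (↑S : Set ℕ) := fun h => hℓS (Finset.mem_coe.mp h)
    obtain ⟨a, haq, hmem⟩ := hcong ℓ hℓ hℓg hℓN hℓp
    have hx : chig.rangeRestrict (CuspForm.heckeAlgebra.T hℓ hℓM hℓS')
        - ((W.apOfModel ℓ : ℤ) : chig.range) ∈ 𝔪.comap incl := by
      rw [Ideal.mem_comap, map_sub, map_intCast]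
      have h1 : incl (chig.rangeRestrict (CuspForm.heckeAlgebra.T hℓ hℓM hℓS')) = a := by
        apply Subtype.ext
        rw [haq, ← hchig ℓ hℓ hℓM hℓS']
        rfl
      rw [h1]
      exact hmem
    have h2 := hφ0 _ hx
    rw [map_sub, map_sub, map_sub, map_intCast, map_intCast, map_intCast, sub_eq_zero] at h2
    rw [Fermat.Agent.EC.bn2_residual_charpoly, ha ℓ hℓ hℓM hℓS' A hA τ hτ]
    simp only [Polynomial.map_add, Polynomial.map_sub, Polynomial.map_mul, Polynomial.map_pow,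
      Polynomial.map_X, Polynomial.map_C, RingHom.comp_apply, map_natCast,
      Polynomial.map_natCast]
    rw [h2]
  -- a Frobenius at `r`
  obtain ⟨A, σ, hA, hσ⟩ := Fermat.Agent.Common.exists_isFrobeniusAt r hr
  have htr := s59lqo_trace_of_frob W hΔ p hirr ρ.residual S hρ hr hrg hrp A hA σ hσ
  have hfin : (((W.apOfModel r ^ 2 - ((r : ℤ) + 1) ^ 2 : ℤ)) : ResidueField O'') = 0 := by
    rcases hb r hr hrp hrM hr2 A hA σ hσ with h | h
    · have h' : LinearMap.charpoly (ρ.residual.ρ σ)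
          = X ^ 2 - C (((r : ℕ) : ResidueField O'') + 1) * X
            + C (((r : ℕ) : ResidueField O'')) := by
        rw [Fermat.Agent.EC.bn2_residual_charpoly, h]
        simp only [Polynomial.map_add, Polynomial.map_sub, Polynomial.map_mul,
          Polynomial.map_pow, Polynomial.map_X, Polynomial.map_C, map_natCast, map_add, map_one,
          Polynomial.map_natCast, Polynomial.map_one]
      have h3 := Fermat.Agent.S31.trace_of_charpoly ρ.residual.finrank_eq _ _ _ h'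
      rw [htr] at h3
      push_cast
      rw [h3]
      ring
    · have h' : LinearMap.charpoly (ρ.residual.ρ σ)
          = X ^ 2 - C (-(((r : ℕ) : ResidueField O'') + 1)) * X
            + C (((r : ℕ) : ResidueField O'')) := by
        rw [Fermat.Agent.EC.bn2_residual_charpoly, h]
        simp only [Polynomial.map_add, Polynomial.map_sub, Polynomial.map_mul,
          Polynomial.map_pow, Polynomial.map_X, Polynomial.map_C, map_natCast, map_add, map_one,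
          map_neg, Polynomial.map_natCast, Polynomial.map_one]
        ring
      have h3 := Fermat.Agent.S31.trace_of_charpoly ρ.residual.finrank_eq _ _ _ h'
      rw [htr] at h3
      push_cast
      rw [h3]
      ring
  exact hap ((CharP.intCast_eq_zero_iff (ResidueField O'') p _).1 hfin)

/-- **OLD-r.**  Removing a good prime `r ∤ M₁ p` from the level `M₁ r` when
`a_r(W)² ≢ (r + 1)² mod p` (no geometry: newforms + S35 + UPG). -/
theorem s59lqo_main (W : WeierstrassCurve ℤ) (hΔ : W.Δ ≠ 0) (p : ℕ) [hpF : Fact p.Prime]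
    (hirr : W.ModRepIsIrreducible p) {M₁ r : ℕ} (hM₁ : 0 < M₁) (hr : r.Prime)
    (hrM : ¬ r ∣ M₁) (hrp : r ≠ p) (hrg : W.IsGoodPrimeFor r)
    (hap : ¬ (p : ℤ) ∣ W.apOfModel r ^ 2 - ((r : ℤ) + 1) ^ 2)
    (h : W.IsResiduallyModularOfLevel p (M₁ * r)) :
    W.IsResiduallyModularOfLevel p M₁ := by
  classical
  obtain ⟨f, 𝔪, hf, hm, hpm, hcong⟩ := h
  have hN0 : M₁ * r ≠ 0 := Nat.mul_ne_zero hM₁.ne' hr.ne_zero
  obtain ⟨M, hMN, g, hg, hgf⟩ := Fermat.Agent.S58.nf_exists_newform hN0 f hf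
  have hM0 : M ≠ 0 := fun h0 => hN0 (Nat.eq_zero_of_zero_dvd (h0 ▸ hMN))
  haveI : NeZero M := ⟨hM0⟩
  have hcong' : ∀ ℓ : ℕ, ℓ.Prime → W.IsGoodPrimeFor ℓ → ¬ ℓ ∣ M₁ * r → ℓ ≠ p →
      ∃ a : integralClosure ℤ ℂ, (a : ℂ) = qCoeff g ℓ ∧
        a - ((W.apOfModel ℓ : ℤ) : integralClosure ℤ ℂ) ∈ 𝔪 := by
    intro ℓ hℓ hℓg hℓN hℓp
    obtain ⟨a, ha, hmem⟩ := hcong ℓ hℓ hℓg hℓN hℓp
    exact ⟨a, by rw [ha, hgf ℓ hℓ hℓN], hmem⟩
  by_cases hrMM : r ∣ M
  · exfalso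
    have hr2 : ¬ r ^ 2 ∣ M := by
      intro h2
      have h3 : r * r ∣ M₁ * r := by
        rw [← pow_two]
        exact h2.trans hMN
      exact hrM ((Nat.mul_dvd_mul_iff_right hr.pos).1 h3)
    exact s59lqo_not_new W hΔ p hirr hN0 hMN hr hrp hrg hrMM hr2 hap g hg 𝔪 hm hpm hcong'
  · have hcop : Nat.Coprime M r := ((Nat.Prime.coprime_iff_not_dvd hr).2 hrMM).symm
    have hMM₁ : M ∣ M₁ := hcop.dvd_of_dvd_mul_right hMN
    obtain ⟨h, hh, hq⟩ := Fermat.Agent.S58.stab_exists_prime hM₁.ne' hMM₁ g hg.1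
    refine s59lq_upg_resid W hΔ p hirr hM₁ h hh 𝔪 hm hpm {r} ?_
    intro ℓ hℓ hℓS hℓg hℓM hℓp
    have hℓr : ℓ ≠ r := fun e => hℓS (by rw [e]; exact Finset.mem_singleton_self r)
    have hℓN : ¬ ℓ ∣ M₁ * r := by
      intro hd
      rcases (Nat.Prime.dvd_mul hℓ).1 hd with h1 | h1
      · exact hℓM h1
      · exact hℓr ((Nat.prime_dvd_prime_iff_eq hℓ hr).1 h1)
    obtain ⟨a, ha, hmem⟩ := hcong' ℓ hℓ hℓg hℓN hℓp
    exact ⟨a, by rw [ha, hq ℓ hℓ hℓM], hmem⟩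

end Fermat.Agent.S59.LowQ

end
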